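import Fermat.Agent.S55.Inv.Spec2
import Fermat.Agent.S55.K.Spec

/-!
# S55 / `InvSpec` : FROZEN SUB-INTERFACE, part 3 — the arithmetic cores (sub-architect helper3)

The two global leaves `GlobCokerSpec` (INV-COK) and `WeakRecipSpec` (INV-WR) are reduced to
statements in the cochain vocabulary of layer K (`K/Defs.lean`, `K/Spec.lean`):
coefficients `μ = Bridge.muP p`, `𝔼 = K.sUnits S`, `𝕃_q = Tow.unitsQpbar q`, induced modules
`K.indG U A`, `K.ind (rl q) U A`.

* `CokerESpec p S`          (GO4): any two families of local classes of `Ind_U μ` (`q ∈ S`) have a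
                            non-trivial `F_p`-combination which is the localisation of a global
                            `p`-torsion class of `Ind_U 𝔼`, the comparison taking place in
                            `H²(G_q, Ind_U 𝕃_q)`;
* `WeakRecipESpec p S`      (GO5): a global `p`-torsion class of `𝔼` over `ℚ` which is locally
                            trivial (in `𝕃_{v'}`) at all `v' ≠ v` is locally trivial at `v`;
* `LocKummerInjSpec p S`    (LKI): `H²(G_q, μ) → H²(G_q, 𝕃_q)` is injective (Hilbert 90);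
* `LocKummerInjIndSpec p S` (LKI-Ind): the same for `Ind_U μ → Ind_U 𝕃_q`.

Adapters (leaves INV-COK, INV-WR):
  `GlobCokerSpec ⇐ CokerESpec + K.KummerSpec + LocKummerInjIndSpec`,
  `WeakRecipSpec ⇐ WeakRecipESpec + LocKummerInjSpec`.
-/

set_option autoImplicit false

noncomputable section

namespace Fermat.Agent.S55.Inv

open Fermat.Agent.S55.PT Fermat.Agent.S55.K Fermat.Agent.S55.Bridge groupCohomology ExtCitation

variable (p : ℕ) [Fact p.Prime] (S : Finset Nat.Primes)

/-- `μ_p → ℚ̄_qˣ` (through the `S`-units). -/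
def muToL (q : Nat.Primes) : muP p →+ Tow.unitsQpbar q :=
  (locE q S).toAddMonoidHom.comp (muToE p S)

/-- `Ind_U μ_p → Ind_U ℚ̄_qˣ` (through `Ind_U 𝔼`). -/
def indMuToL (q : Nat.Primes) (U : Subgroup GQ) :
    indG U (muP p) →+ ind (rl q) U (Tow.unitsQpbar q) :=
  (indLocE q S U).toAddMonoidHom.comp (indMuToE p S U)

/-- **LKI.**  A level-constant local 2-cocycle with values in `μ_p` which is the coboundary of a
level-constant 1-cochain with values in `ℚ̄_qˣ` is the coboundary of a level-constant 1-cochain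
with values in `μ_p`.  (Hilbert 90 + divisibility of `ℚ̄_qˣ`.) -/
def LocKummerInjSpec : Prop :=
  ∀ q ∈ S, ∀ x ∈ (localLevels q).Z2 (Rep.res (rl q) (muP p)),
    (muToL p S q ∘ x : Gl q × Gl q → Tow.unitsQpbar q) ∈
        (localLevels q).B2 (Tow.unitsQpbar q) →
      x ∈ (localLevels q).B2 (Rep.res (rl q) (muP p))

/-- **LKI-Ind.**  The same for the induced modules `Ind_U μ_p → Ind_U ℚ̄_qˣ`, `U` a normal global
level. -/
def LocKummerInjIndSpec : Prop :=
  ∀ q ∈ S, ∀ U ∈ (globalLevels S).levels, U.Normal →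
    ∀ x ∈ (localLevels q).Z2 (Rep.res (rl q) (indG U (muP p))),
      (indMuToL p S q U ∘ x : Gl q × Gl q → ind (rl q) U (Tow.unitsQpbar q)) ∈
          (localLevels q).B2 (ind (rl q) U (Tow.unitsQpbar q)) →
        x ∈ (localLevels q).B2 (Rep.res (rl q) (indG U (muP p)))

/-- **GO5 (weak reciprocity over `ℚ`, `S`-units).**  Let `e` be a level-constant 2-cocycle of
`G_ℚ` with values in the `S`-units, of `p`-torsion class.  If `e` is locally a coboundary (with
values in `ℚ̄_{v'}ˣ`) at all `v' ∈ S` different from `v`, then it is locally a coboundary at `v`.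
(Sum formula for `Br(ℚ)[p]`: the invariants outside `S` vanish since `e` is `S`-unramified with
unit values; `p` odd: no contribution at infinity.) -/
def WeakRecipESpec : Prop :=
  p ≠ 2 → pPrime p ∈ S →
  ∀ e ∈ (globalLevels S).Z2 (sUnits S), p • e ∈ (globalLevels S).B2 (sUnits S) →
    ∀ v : ↥S,
      (∀ v' : ↥S, v' ≠ v →
        (locE v'.1 S ∘ e ∘ Prod.map (rl v'.1) (rl v'.1) :
            Gl v'.1 × Gl v'.1 → Tow.unitsQpbar v'.1) ∈
          (localLevels v'.1).B2 (Tow.unitsQpbar v'.1)) →
      (locE v.1 S ∘ e ∘ Prod.map (rl v.1) (rl v.1) :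
          Gl v.1 × Gl v.1 → Tow.unitsQpbar v.1) ∈
        (localLevels v.1).B2 (Tow.unitsQpbar v.1)

/-- **GO4 (cokernel of the localisation map has order `≤ p`).**  Let `U` be a normal level
acting trivially on `μ_p` and let `x, x'` be two families of level-constant local 2-cocycles with
values in `Ind_U μ_p`.  Then there are `(a, b) ≠ (0, 0)` in `F_p` and a level-constant 2-cocycle
`e` of `G_ℚ` with values in `Ind_U 𝔼`, of `p`-torsion class, whose localisation at every `q ∈ S`
is cohomologous in `Ind_U ℚ̄_qˣ` to `a • x_q + b • x'_q`.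
(`H²(G_S(K), 𝒪_Sˣ)[p] → ⊕_{w ∣ S} Br(K_w)[p] → H²(C_S(K))[p]`, the last group of order `≤ p`.) -/
def CokerESpec : Prop :=
  p ≠ 2 → pPrime p ∈ S →
  ∀ U ∈ (globalLevels S).levels, U.Normal → (∀ s ∈ U, cycloChar p s = 1) →
    ∀ x x' : (q : ↥S) → (Gl q.1 × Gl q.1 → indG U (muP p)),
      (∀ q : ↥S, x q ∈ (localLevels q.1).Z2 (Rep.res (rl q.1) (indG U (muP p)))) →
      (∀ q : ↥S, x' q ∈ (localLevels q.1).Z2 (Rep.res (rl q.1) (indG U (muP p)))) →
      ∃ a b : ZMod p, (a ≠ 0 ∨ b ≠ 0) ∧
        ∃ e ∈ (globalLevels S).Z2 (indG U (sUnits S)),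
          p • e ∈ (globalLevels S).B2 (indG U (sUnits S)) ∧
          ∀ q : ↥S,
            ((indLocE q.1 S U ∘ e ∘ Prod.map (rl q.1) (rl q.1) :
                Gl q.1 × Gl q.1 → ind (rl q.1) U (Tow.unitsQpbar q.1)) -
              indMuToL p S q.1 U ∘ (a • x q + b • x' q)) ∈
              (localLevels q.1).B2 (ind (rl q.1) U (Tow.unitsQpbar q.1))

end Fermat.Agent.S55.Inv

end
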