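/-
S55 (Poitou–Tate), route C′, input `InvSpec`, leaf INV-COK (helper99), part 1: the ABSTRACT adapter.

Setting: a global group `G` with level system `L`, finitely many local groups `Gv v` with level
systems `Lv v` and level-compatible maps `r v : Gv v → G`; an `F_p`-representation `M` of `G`
with a Kummer embedding `κ : M → E` into a smooth `p`-divisible `ℤ`-representation `E` of `G`
(think `M = Ind_U μ_p`, `E = Ind_U` (`S`-units of `ℚ̄`); only `LCDivisible` is needed, which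
follows from `K.KummerSpec`: `lcDivisible_of_kummer`); for every `v` a smooth `p`-divisible
`ℤ`-representation `B v` of `Gv v` with `H¹_lc(Gv v, B v) = 0` (think `B v = Ind_U ℚ̄_vˣ`) and an
equivariant map `lam v : E → B v` such that `lam v ∘ κ` is a Kummer embedding of `M|_{Gv v}`.

`exists_functional_of_twoFamily`:  if the cokernel of
`H²_lc(G, E)[p] → ∏_v H²_lc(Gv v, B v)[p]` has at most `p` elements — in the cochain form
`TwoFamily` ("any two families of `p`-torsion local classes are linearly dependent modulo the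
global `p`-torsion classes") — then the image of
`loc2 : H²_lc(G, M) → ∏_v H²_lc(Gv v, M)` contains the kernel of a linear functional.

This is exactly the conclusion of `Inv.GlobCokerSpec` for `M = Ind_U μ_p`.
No arithmetic; only `KC.H53` (Kummer theory at the level of level-constant cochains).
-/
import Fermat.Agent.S55.KC.KummerH2H53

set_option autoImplicit false
set_option linter.style.haveILetI false
set_option linter.unusedSectionVars false

noncomputable section

namespace Fermat.Agent.S55.Inv.H99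

open groupCohomology ExtCitation Fermat.Agent.S55.PT Fermat.Agent.S55.KC

/-! ## 1. Linear algebra: pairwise dependence modulo `W` ⇒ `W` contains a hyperplane -/

/-- If any two vectors of `V` are linearly dependent modulo the subspace `W`, then `W` contains
the kernel of a linear functional. -/
theorem exists_functional_of_pairwise {k V : Type*} [Field k] [AddCommGroup V] [Module k V]
    (W : Submodule k V)
    (h : ∀ x x' : V, ∃ a b : k, (a ≠ 0 ∨ b ≠ 0) ∧ a • x + b • x' ∈ W) :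
    ∃ f : V →ₗ[k] k, LinearMap.ker f ≤ W := by
  by_cases hW : ∀ x : V, x ∈ W
  · exact ⟨0, fun x _ => hW x⟩
  · obtain ⟨x₀, hx₀⟩ := not_forall.1 hW
    have hq₀ : W.mkQ x₀ ≠ 0 := by
      intro h0
      exact hx₀ ((Submodule.Quotient.mk_eq_zero W).1 h0)
    obtain ⟨φ, hφ⟩ : ∃ φ : Module.Dual k (V ⧸ W), φ (W.mkQ x₀) ≠ 0 := by
      by_contra hcon
      refine hq₀ ((Module.forall_dual_apply_eq_zero_iff k _).1 fun φ => ?_)
      by_contra hφ
      exact hcon ⟨φ, hφ⟩
    refine ⟨φ ∘ₗ W.mkQ, fun x hx => ?_⟩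
    have hfx : φ (W.mkQ x) = 0 := hx
    obtain ⟨a, b, hab, hmem⟩ := h x₀ x
    have h1 : a • W.mkQ x₀ + b • W.mkQ x = 0 := by
      rw [← map_smul, ← map_smul, ← map_add]
      exact (Submodule.Quotient.mk_eq_zero W).2 hmem
    have h2 : a * φ (W.mkQ x₀) = 0 := by
      have := congrArg φ h1
      rw [map_add, map_smul, map_smul, hfx, smul_zero, add_zero, map_zero, smul_eq_mul] at this
      exact this
    have ha : a = 0 := (mul_eq_zero.1 h2).resolve_right hφ
    have hb : b ≠ 0 := hab.resolve_left (fun h => h ha)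
    rw [ha, zero_smul, zero_add] at hmem
    have := W.smul_mem b⁻¹ hmem
    rwa [smul_smul, inv_mul_cancel₀ hb, one_smul] at this

/-! ## 2. Divisibility of level-constant cochains -/

section LCDiv

variable {G : Type} [Group G] (L : LevelSys G)

/-- `x` is fixed by some level. -/
def IsSmoothElt {k : Type} [CommRing k] (E : Rep.{0, 0, 0} k G) (x : E) : Prop :=
  ∃ U ∈ L.levels, ∀ s ∈ U, E.ρ s x = x

/-- The level-constant 1-cochains of `E` with level-constant coboundary are `p`-divisible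
(as such). -/
def LCDivisible (p : ℕ) (E : Rep.{0, 0, 0} ℤ G) : Prop :=
  ∀ b : G → E, L.IsLC₁ b → L.IsLC₂ ((d₁₂ E).hom b) →
    ∃ b₁ : G → E, L.IsLC₁ b₁ ∧ L.IsLC₂ ((d₁₂ E).hom b₁) ∧ p • b₁ = b

variable {L}

/-- Finitely many smooth elements are fixed by a common level. -/
lemma exists_level_fixing_of_finite {k : Type} [CommRing k] {E : Rep.{0, 0, 0} k G}
    {T : Set E} (hT : T.Finite) (hsm : ∀ t ∈ T, IsSmoothElt L E t) :
    ∃ W ∈ L.levels, ∀ t ∈ T, ∀ s ∈ W, E.ρ s t = t := by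
  classical
  induction T, hT using Set.Finite.induction_on with
  | empty =>
    obtain ⟨U, hU⟩ := L.nonempty
    exact ⟨U, hU, by simp⟩
  | @insert a T _ _ ih =>
    obtain ⟨W, hW, h⟩ := ih (fun t ht => hsm t (Set.mem_insert_of_mem a ht))
    obtain ⟨U, hU, hUa⟩ := hsm a (Set.mem_insert a T)
    obtain ⟨V, hV, hle⟩ := L.directed U hU W hW
    refine ⟨V, hV, fun t ht s hs => ?_⟩
    rcases ht with rfl | ht
    · exact hUa s (hle hs).1
    · exact h t ht s (hle hs).2

/-- **Key remark.**  If `b` is constant modulo the normal subgroup `N` and `d b` is constant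
modulo `N`, then all values of `b` are `N`-invariant. -/
lemma values_fixed_of_const {k : Type} [CommRing k] {E : Rep.{0, 0, 0} k G} {N : Subgroup G}
    (hN : N.Normal) {b : G → E} (hb : ∀ g s : G, s ∈ N → b (g * s) = b g)
    (hdb : ∀ g g' s s' : G, s ∈ N → s' ∈ N →
      (d₁₂ E).hom b (g * s, g' * s') = (d₁₂ E).hom b (g, g'))
    (h : G) (s : G) (hs : s ∈ N) : E.ρ s (b h) = b h := by
  have h1 := hdb 1 h s 1 hs N.one_mem
  simp only [d₁₂_hom_apply, one_mul, mul_one, map_one, Module.End.one_apply] at h1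
  have h2 : b (s * h) = b h := by
    have : s * h = h * (h⁻¹ * s * h) := by group
    rw [this]
    refine hb h _ ?_
    have := hN.conj_mem s hs h⁻¹
    simpa using this
  have h3 : b s = b 1 := by
    have := hb 1 s hs
    rwa [one_mul] at this
  rw [h2, h3] at h1
  -- h1 : ρ s (b h) - b h + b 1 = b h - b h + b 1
  have h4 : E.ρ s (b h) - b h = 0 := by
    have := congrArg (fun t => t - b 1) h1
    simpa using this
  exact sub_eq_zero.1 h4

/-- `d` of a level-constant 1-cochain with smooth values is level-constant. -/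
lemma d₁₂_isLC₂_of_values_smooth (hN : L.NormalCofinal) (hF : L.FiniteIndex)
    {k : Type} [CommRing k] {E : Rep.{0, 0, 0} k G} {x : G → E} (hx : L.IsLC₁ x)
    (hsm : ∀ g, IsSmoothElt L E (x g)) : L.IsLC₂ ((d₁₂ E).hom x) := by
  obtain ⟨W, hW, hfix⟩ := exists_level_fixing_of_finite (H53.finite_range_of_isLC₁ L hF hx)
    (by rintro _ ⟨g, rfl⟩; exact hsm g)
  obtain ⟨V, hV, hxV⟩ := hx
  obtain ⟨W', hW', hle⟩ := L.directed W hW V hV
  obtain ⟨N, hNl, hNW, hNn⟩ := hN W' hW'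
  refine ⟨N, hNl, fun g g' s s' hs hs' => ?_⟩
  have hconj : g'⁻¹ * s * g' ∈ N := by
    have := hNn.conj_mem s hs g'⁻¹
    simpa using this
  have hmem : g'⁻¹ * s * g' * s' ∈ V := (hle (hNW (N.mul_mem hconj hs'))).2
  have e1 : g * s * (g' * s') = g * g' * (g'⁻¹ * s * g' * s') := by group
  simp only [d₁₂_hom_apply]
  rw [e1, hxV (g * g') _ hmem, hxV g' s' (hle (hNW hs')).2, hxV g s (hle (hNW hs)).2, map_mul,
    Module.End.mul_apply, hfix (x g') ⟨g', rfl⟩ s (hle (hNW hs)).1]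

/-- Kummer-type divisibility (smooth elements have smooth `p`-th roots) implies `LCDivisible`. -/
theorem lcDivisible_of_kummer (hN : L.NormalCofinal) (hF : L.FiniteIndex) (p : ℕ)
    (E : Rep.{0, 0, 0} ℤ G)
    (hK : ∀ x : E, IsSmoothElt L E x → ∃ y : E, p • y = x ∧ IsSmoothElt L E y) :
    LCDivisible L p E := by
  classical
  intro b hb hdb
  -- a common normal level
  obtain ⟨U₁, hU₁, h₁⟩ := hb
  obtain ⟨U₂, hU₂, h₂⟩ := hdb
  obtain ⟨W, hW, hle⟩ := L.directed U₁ hU₁ U₂ hU₂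
  obtain ⟨N, hNl, hNW, hNn⟩ := hN W hW
  have hval : ∀ g, IsSmoothElt L E (b g) := fun g =>
    ⟨N, hNl, fun s hs => values_fixed_of_const hNn
      (fun g s hs => h₁ g s (hle (hNW hs)).1)
      (fun g g' s s' hs hs' => h₂ g g' s s' (hle (hNW hs)).2 (hle (hNW hs')).2) g s hs⟩
  let root : E → E := fun x => if hx : IsSmoothElt L E x then (hK x hx).choose else 0
  have hroot : ∀ x, IsSmoothElt L E x → p • root x = x ∧ IsSmoothElt L E (root x) := by
    intro x hx
    simp only [root, dif_pos hx]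
    exact (hK x hx).choose_spec
  have hb₁ : L.IsLC₁ (root ∘ b) := LevelSys.IsLC₁.comp ⟨U₁, hU₁, h₁⟩ root
  refine ⟨root ∘ b, hb₁, ?_, ?_⟩
  · exact d₁₂_isLC₂_of_values_smooth hN hF hb₁ (fun g => (hroot _ (hval g)).2)
  · funext g
    exact (hroot _ (hval g)).1

/-- A smooth `p`-divisible representation is `LCDivisible`. -/
theorem lcDivisible_of_smooth (hN : L.NormalCofinal) (hF : L.FiniteIndex) (p : ℕ)
    (E : Rep.{0, 0, 0} ℤ G) (hsm : L.IsSmooth E) (hdiv : IsPDivisible p E) :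
    LCDivisible L p E :=
  lcDivisible_of_kummer hN hF p E fun x _ => by
    obtain ⟨y, hy⟩ := hdiv x
    exact ⟨y, hy, hsm y⟩

variable {p : ℕ} [Fact p.Prime] {M : Rep.{0, 0, 0} (ZMod p) G} {E : Rep.{0, 0, 0} ℤ G}
  {κ : M →+ E}

/-- Surjectivity of `H²_lc(M) → H²_lc(E)[p]` for an `LCDivisible` module `E`. -/
lemma exists_Z2_of_lcDivisible (hE : LCDivisible L p E) (hκ : IsKummerEmb p M E κ)
    {a : G × G → E} (ha : a ∈ L.Z2 E) (hpa : p • a ∈ L.B2 E) :
    ∃ m : G × G → M, m ∈ L.Z2 M ∧ κ ∘ m - a ∈ L.B2 E := by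
  obtain ⟨b, hb, hba⟩ := hpa
  have hdb : L.IsLC₂ ((d₁₂ E).hom b) := by
    rw [hba]
    exact LevelSys.IsLC₂.comp ha.2 (p • ·)
  obtain ⟨b₁, hb₁lc, hdlc, hpb₁⟩ := hE b hb hdb
  have hkill : ∀ x, p • (a - (d₁₂ E).hom b₁) x = 0 := by
    intro x
    have h1 : (p • (a - (d₁₂ E).hom b₁)) = 0 := by
      rw [smul_sub, ← map_nsmul, hpb₁]
      exact sub_eq_zero.2 hba.symm
    have := congrFun h1 x
    simpa using this
  obtain ⟨m, hm⟩ := H53.exists_lift_of_p_nsmul_eq_zero hκ _ hkill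
  refine ⟨m, ⟨?_, ?_⟩, ?_⟩
  · refine (H53.ι_mem_cocycles₂_iff hκ m).1 ?_
    rw [hm]
    exact (cocycles₂ E).sub_mem ha.1 (d₁₂_apply_mem_cocycles₂ b₁)
  · apply H53.isLC₂_of_ι L hκ
    rw [hm]
    exact H53.IsLC₂.sub' L ha.2 hdlc
  · rw [hm]
    have : a - (d₁₂ E).hom b₁ - a = (d₁₂ E).hom (-b₁) := by
      rw [map_neg]; abel
    rw [this]
    exact ⟨-b₁, (L.C1 E).neg_mem hb₁lc, rfl⟩

end LCDiv

/-! ## 3. The abstract adapter -/

section Abstract

variable {G : Type} [Group G] {ι : Type} [Fintype ι] [DecidableEq ι]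
  {Gv : ι → Type} [∀ v, Group (Gv v)]
  {L : LevelSys G} {Lv : ∀ v, LevelSys (Gv v)} {r : ∀ v, Gv v →* G}
  (hr : ∀ v, IsLevelCompatible (r v) L (Lv v))
  (p : ℕ) [Fact p.Prime]
  (M : Rep.{0, 0, 0} (ZMod p) G) (E : Rep.{0, 0, 0} ℤ G) (κ : M →+ E)
  (B : ∀ v, Rep.{0, 0, 0} ℤ (Gv v)) (lam : ∀ v, E →+ B v)

/-- **GO4, abstract two-family cochain form.**  The cokernel of
`H²_lc(G, E)[p] → ∏_v H²_lc(Gv v, B v)[p]` has at most `p` elements: for any two families
`X, X'` of level-constant local 2-cocycles whose classes are killed by `p` there are integers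
`(a, b) ≢ (0, 0)` mod `p` and a level-constant global 2-cocycle `y` whose class is killed by `p`
such that `a X_v + b X'_v` is cohomologous to the localisation of `y` for all `v`. -/
def TwoFamily (L : LevelSys G) (Lv : ∀ v, LevelSys (Gv v)) (r : ∀ v, Gv v →* G) (p : ℕ)
    (E : Rep.{0, 0, 0} ℤ G) (B : ∀ v, Rep.{0, 0, 0} ℤ (Gv v)) (lam : ∀ v, E →+ B v) : Prop :=
  ∀ X X' : ∀ v, Gv v × Gv v → B v,
    (∀ v, X v ∈ (Lv v).Z2 (B v) ∧ p • X v ∈ (Lv v).B2 (B v)) →
    (∀ v, X' v ∈ (Lv v).Z2 (B v) ∧ p • X' v ∈ (Lv v).B2 (B v)) →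
    ∃ a b : ℤ, ¬ ((p : ℤ) ∣ a ∧ (p : ℤ) ∣ b) ∧
      ∃ y : G × G → E, y ∈ L.Z2 E ∧ p • y ∈ L.B2 E ∧
        ∀ v, a • X v + b • X' v - (fun x : Gv v × Gv v => lam v (y (r v x.1, r v x.2))) ∈
          (Lv v).B2 (B v)

variable {p M E κ B lam}

include hr in
/-- Localisation of a global level-constant coboundary is a local level-constant coboundary. -/
lemma loc_mem_B2 (hlam : ∀ v (g : Gv v) (e : E), lam v (E.ρ (r v g) e) = (B v).ρ g (lam v e))
    (v : ι) {z : G × G → E} (hz : z ∈ L.B2 E) :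
    (fun x : Gv v × Gv v => lam v (z (r v x.1, r v x.2))) ∈ (Lv v).B2 (B v) := by
  obtain ⟨e, he, rfl⟩ := hz
  refine ⟨fun g => lam v (e (r v g)), ?_, ?_⟩
  · have h1 : (Lv v).IsLC₁ (e ∘ r v) := IsLC₁.res (hr v) he
    exact LevelSys.IsLC₁.comp h1 (lam v)
  · funext ⟨g, h⟩
    simp only [d₁₂_hom_apply, map_add, map_sub, hlam, map_mul]

/-- **INV-COK, abstract form.** -/
theorem exists_functional_of_twoFamily
    (hEdiv : LCDivisible L p E) (hκ : IsKummerEmb p M E κ)
    (hlam : ∀ v (g : Gv v) (e : E), lam v (E.ρ (r v g) e) = (B v).ρ g (lam v e))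
    (hBsm : ∀ v, (Lv v).IsSmooth (B v)) (hBdiv : ∀ v, IsPDivisible p (B v))
    (hBκ : ∀ v, IsKummerEmb p (Rep.res (r v) M) (B v) ((lam v).comp κ))
    (hB1 : ∀ v, H1Vanish (Lv v) (B v))
    (hGO4 : TwoFamily L Lv r p E B lam) :
    ∃ f : ((v : ι) → (Lv v).H2 (Rep.res (r v) M)) →ₗ[ZMod p] ZMod p,
      LinearMap.ker f ≤ LinearMap.range (loc2 hr M) := by
  refine exists_functional_of_pairwise _ fun x x' => ?_
  -- cocycle representatives
  choose c hc using fun v => (Lv v).H2π_surjective (Rep.res (r v) M) (x v)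
  choose c' hc' using fun v => (Lv v).H2π_surjective (Rep.res (r v) M) (x' v)
  -- push to `B v`
  have hX : ∀ v, (((lam v).comp κ) ∘ (c v : Gv v × Gv v → Rep.res (r v) M)) ∈ (Lv v).Z2 (B v) ∧
      p • (((lam v).comp κ) ∘ (c v : Gv v × Gv v → Rep.res (r v) M)) ∈ (Lv v).B2 (B v) := by
    intro v
    refine ⟨H53.ι_mem_Z2 (Lv v) (hBκ v) (c v).2, ?_⟩
    have : p • (((lam v).comp κ) ∘ (c v : Gv v × Gv v → Rep.res (r v) M)) = 0 := by
      funext y
      exact H53.p_nsmul_ι (ι := (lam v).comp κ) ((c v : Gv v × Gv v → Rep.res (r v) M) y)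
    rw [this]
    exact ((Lv v).B2 (B v)).zero_mem
  have hX' : ∀ v, (((lam v).comp κ) ∘ (c' v : Gv v × Gv v → Rep.res (r v) M)) ∈ (Lv v).Z2 (B v) ∧
      p • (((lam v).comp κ) ∘ (c' v : Gv v × Gv v → Rep.res (r v) M)) ∈ (Lv v).B2 (B v) := by
    intro v
    refine ⟨H53.ι_mem_Z2 (Lv v) (hBκ v) (c' v).2, ?_⟩
    have : p • (((lam v).comp κ) ∘ (c' v : Gv v × Gv v → Rep.res (r v) M)) = 0 := by
      funext y
      exact H53.p_nsmul_ι (ι := (lam v).comp κ) ((c' v : Gv v × Gv v → Rep.res (r v) M) y)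
    rw [this]
    exact ((Lv v).B2 (B v)).zero_mem
  obtain ⟨a, b, hab, y, hy, hpy, hloc⟩ := hGO4 _ _ hX hX'
  -- global Kummer surjectivity
  obtain ⟨m, hm, hmy⟩ := exists_Z2_of_lcDivisible hEdiv hκ hy hpy
  refine ⟨(a : ZMod p), (b : ZMod p), ?_, ?_⟩
  · by_contra hcon
    rw [not_or, not_not, not_not] at hcon
    exact hab ⟨(ZMod.intCast_zmod_eq_zero_iff_dvd a p).1 hcon.1,
      (ZMod.intCast_zmod_eq_zero_iff_dvd b p).1 hcon.2⟩
  · refine ⟨L.H2π M ⟨m, hm⟩, ?_⟩
    funext v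
    rw [loc2_apply, resH2_mk, Pi.add_apply, Pi.smul_apply, Pi.smul_apply, ← hc v, ← hc' v,
      ← map_smul, ← map_smul, ← map_add, ← sub_eq_zero, ← map_sub, LevelSys.H2π_eq_zero_iff]
    -- local Kummer injectivity
    refine H53.mem_B2_of_ι_mem_B2 (Lv v) (hBsm v) (hBdiv v) (hBκ v) (hB1 v) ?_
    have key : ((lam v).comp κ) ∘ ((resZ2 (hr v) M ⟨m, hm⟩ -
        ((a : ZMod p) • c v + (b : ZMod p) • c' v) : ↥((Lv v).Z2 (Rep.res (r v) M))) :
          Gv v × Gv v → Rep.res (r v) M) =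
        (fun x : Gv v × Gv v => lam v ((κ ∘ m - y) (r v x.1, r v x.2))) -
          (a • (((lam v).comp κ) ∘ (c v : Gv v × Gv v → Rep.res (r v) M)) +
            b • (((lam v).comp κ) ∘ (c' v : Gv v × Gv v → Rep.res (r v) M)) -
            (fun x : Gv v × Gv v => lam v (y (r v x.1, r v x.2)))) := by
      funext z
      have e1 : ∀ (n : ℤ) (t : Rep.res (r v) M),
          ((lam v).comp κ) ((n : ZMod p) • t) = n • ((lam v).comp κ) t := by
        intro n t
        rw [Int.cast_smul_eq_zsmul, map_zsmul]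
      show ((lam v).comp κ) (m (r v z.1, r v z.2) -
          ((a : ZMod p) • (c v : Gv v × Gv v → Rep.res (r v) M) z +
            (b : ZMod p) • (c' v : Gv v × Gv v → Rep.res (r v) M) z)) = _
      rw [map_sub, map_add, e1, e1]
      simp only [Pi.sub_apply, Pi.add_apply, Pi.smul_apply, Function.comp_apply, map_sub,
        AddMonoidHom.comp_apply]
      abel
    rw [key]
    exact ((Lv v).B2 (B v)).sub_mem (loc_mem_B2 hr hlam v hmy) (hloc v)

end Abstract

end Fermat.Agent.S55.Inv.H99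

end
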