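import Fermat.Agent.S55.PT.Spec

/-!
# S55 / layer D input `InvSpec` (A5, A5′, A6, A7): FROZEN SUB-INTERFACE (sub-architect helper3)

Blueprint: `coord/S55-INV.md` on `origin/helper3`.

`PT.InvSpec p S` (existence of invariant maps with RECIP, TOP-loc-ind, TOP-glob-ind) is reduced
in `Inv/Top.lean` (complete) to FOUR statements, three of which do not mention invariants:

* `PT.Surj2LocSpec p S`     (A4, subtask 351, owner elsewhere);
* `LocalInvRecipSpec p S`   : non-zero functionals `inv_v` on `H²(G_v, μ_p)` with reciprocity;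
* `LocDimSpec p S`          : `dim H²(G_v, Ind_W μ) ≤ 1`           (`Br(E)[p] ≅ ℤ/p`);
* `GlobCokerSpec p S`       : the global classes fill a hyperplane of `∏_v H²(G_v, Ind_U μ)`
                              (`dim coker ≤ 1`; NO invariants, NO corestriction compatibility).

All statements are about the level-constant cochain cohomology of `PT/Levels.lean`.
-/

set_option autoImplicit false

noncomputable section

namespace Fermat.Agent.S55.Inv

open Fermat.Agent.S55.PT groupCohomology ExtCitation

variable (p : ℕ) [Fact p.Prime] (S : Finset Nat.Primes)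

/-- **INV-1 (local invariants + reciprocity).**  There are NON-ZERO linear functionals
`inv_v : H²(G_v, μ_p) → F_p` (`v ∈ S`) such that `Σ_v inv_v(loc_v y) = 0` for every global class
`y ∈ H²_S(μ_p)`.  (Any normalisation.) -/
def LocalInvRecipSpec : Prop :=
  ∃ inv : InvFamily p S, (∀ v : ↥S, inv v ≠ 0) ∧ RecipSpec inv

/-- **INV-2 (local dimension).**  For a normal local level `W` acting trivially on `μ_p`, the
space `H²(G_v, Ind_W μ_p)` is at most one-dimensional: any two classes are linearly dependent.
(Shapiro: it is `H²(E, μ_p) = Br(E)[p] ≅ ℤ/p`, `E` the fixed field of `W`.) -/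
def LocDimSpec : Prop :=
  ∀ (v : ↥S) (W : Subgroup (Gl v.1)), W ∈ (localLevels v.1).levels → W.Normal →
    (∀ s ∈ W, (muLoc p v.1).ρ s = 1) →
    ∀ x y : (localLevels v.1).H2 (indRep W (muLoc p v.1)),
      ∃ a b : ZMod p, (a ≠ 0 ∨ b ≠ 0) ∧ a • x + b • y = 0

/-- **INV-3 (global cokernel).**  For a normal global level `U` acting trivially on `μ_p`, the
image of `H²_S(Ind_U μ_p) → ∏_{v ∈ S} H²(G_v, Ind_U μ_p)` contains the kernel of some linear
functional, i.e. it has codimension `≤ 1`.
(Classically: `H²(G_S(K), μ_p) → ⊕_{w ∈ S_K} Br(K_w)[p]` has cokernel of order `≤ p`.) -/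
def GlobCokerSpec : Prop :=
  ∀ (U : Subgroup GQ), U ∈ (globalLevels S).levels → U.Normal → (∀ s ∈ U, (mu p).ρ s = 1) →
    ∃ f : ((v : ↥S) → (localLevels v.1).H2 (Rep.res (rl v.1) (indRep U (mu p)))) →ₗ[ZMod p]
        ZMod p,
      LinearMap.ker f ≤ LinearMap.range (loc2 (hrl S) (indRep U (mu p)))

end Fermat.Agent.S55.Inv

end
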