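/-
S55 (Poitou–Tate), route C′, input `InvSpec`, leaf INV-COK (helper99), part 2: the adapter

    globCoker_of : p ≠ 2 → pPrime p ∈ S → K.KummerSpec p S → SemiLocalH90Spec S → GO4Spec p S →
      Inv.GlobCokerSpec p S

* `GO4Spec p S`        : the arithmetic input (layer K / G), in cochain form, with the modules of
                         `K/Defs.lean`: `Ind_U 𝔼 = K.indG U (K.sUnits S)`,
                         `Ind_U ℚ̄_qˣ = K.ind (rl q) U (Tow.unitsQpbar q)`, `K.indLocE`.
* `SemiLocalH90Spec S` : `H¹_lc(G_q, Ind_U ℚ̄_qˣ) = 0`.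
* KUM = `K.KummerSpec p S`.

Proved here, unconditionally:
* `isKummerEmb_kappa0`  : `μ_p = F_p(χ_p) → 𝔼` is a Kummer embedding (`𝔼[p] = μ_p`);
* `lcDivisible_ind_sUnits` (from KUM): level-constant cochains of `Ind_U 𝔼` with level-constant
  coboundary are `p`-divisible;
* `isPDivisible_unitsQpbar`, `isSmooth_unitsQpbar` (Krasner, `Bridge/Krasner`),
  `isKummerEmb_locMu` (`μ_p → ℚ̄_qˣ` is a Kummer embedding), `locE_equivariant`;
* `isKummerEmb_ind_res`, `isSmooth_ind_res`, `indLocE_equivariant`: the same for `Ind_U`.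
-/
import Fermat.Agent.S55.Inv.CokAbsH99
import Fermat.Agent.S55.Inv.Spec
import Fermat.Agent.S55.K.Spec
import Fermat.Agent.S55.PT.LevelsH723
import Fermat.Agent.S55.KC.IndH323
import Fermat.Agent.S55.Bridge.Krasner

set_option autoImplicit false
set_option linter.style.haveILetI false
set_option linter.unusedSectionVars false
noncomputable section
namespace Fermat.Agent.S55.Inv.H99

open groupCohomology ExtCitation Fermat.Agent.S55.PT Fermat.Agent.S55.KC Fermat.Agent.S55.Bridge

variable (p : ℕ) [Fact p.Prime] (S : Finset Nat.Primes)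

/-! ## 1. The global Kummer embedding `μ_p → 𝔼` -/

/-- `κ₀ : μ_p = F_p(χ_p) → 𝔼`. -/
def kappa0 : (mu p) →+ (K.sUnits S) :=
  (K.muToE p S).comp (AddMonoidHomClass.toAddMonoidHom (muPLinearEquiv p))

lemma kappa0_apply (m : mu p) : kappa0 p S m = K.muToE p S (muPLinearEquiv p m) := rfl

lemma coe_muToE (x : muP p) :
    ((Additive.toMul (K.sUnitsIncl S (K.muToE p S x)) : K.Qbarˣ) : K.Qbar) =
      (((MuP.root (p := p) x : rootsOfUnity p (AlgebraicClosure ℚ)) : (AlgebraicClosure ℚ)ˣ) :
        AlgebraicClosure ℚ) := rfl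

lemma sUnits_ext {a b : K.sUnits S}
    (h : ((Additive.toMul (K.sUnitsIncl S a) : K.Qbarˣ) : K.Qbar) =
      ((Additive.toMul (K.sUnitsIncl S b) : K.Qbarˣ) : K.Qbar)) : a = b := by
  apply Subtype.ext
  apply Additive.toMul.injective
  exact Units.ext h

lemma coe_sUnits_ρ (g : GQ) (a : K.sUnits S) :
    ((Additive.toMul (K.sUnitsIncl S ((K.sUnits S).ρ g a)) : K.Qbarˣ) : K.Qbar) =
      g ((Additive.toMul (K.sUnitsIncl S a) : K.Qbarˣ) : K.Qbar) := rfl

lemma coe_sUnits_nsmul (n : ℕ) (a : K.sUnits S) :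
    ((Additive.toMul (K.sUnitsIncl S (n • a)) : K.Qbarˣ) : K.Qbar) =
      ((Additive.toMul (K.sUnitsIncl S a) : K.Qbarˣ) : K.Qbar) ^ n := rfl

lemma coe_sUnits_zero :
    ((Additive.toMul (K.sUnitsIncl S (0 : K.sUnits S)) : K.Qbarˣ) : K.Qbar) = 1 := rfl

/-- `κ₀` is a Kummer embedding. -/
theorem isKummerEmb_kappa0 : IsKummerEmb p (mu p) (K.sUnits S) (kappa0 p S) where
  injective := (K.muToE_injective p S).comp (muPLinearEquiv p).injective
  equivariant := by
    intro g m
    apply sUnits_ext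
    have h1 : muPLinearEquiv p ((mu p).ρ g m) = muPRep p g (muPLinearEquiv p m) :=
      LinearMap.congr_fun ((muPRepEquivOfChar p).isIntertwining' g) m
    show (((MuP.root (p := p) (muPLinearEquiv p ((mu p).ρ g m)) :
        rootsOfUnity p (AlgebraicClosure ℚ)) : (AlgebraicClosure ℚ)ˣ) : AlgebraicClosure ℚ) =
      g (((MuP.root (p := p) (muPLinearEquiv p m) :
        rootsOfUnity p (AlgebraicClosure ℚ)) : (AlgebraicClosure ℚ)ˣ) : AlgebraicClosure ℚ)
    rw [h1]
    exact muPRep_apply p g _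
  range_eq := by
    intro b
    constructor
    · intro hb
      have h1 : ((Additive.toMul (K.sUnitsIncl S b) : K.Qbarˣ)) ^ p = 1 := by
        have := congrArg (fun t : K.sUnits S => (Additive.toMul (K.sUnitsIncl S t) : K.Qbarˣ)) hb
        exact this
      let t : rootsOfUnity p (AlgebraicClosure ℚ) :=
        ⟨Additive.toMul (K.sUnitsIncl S b), (mem_rootsOfUnity p _).2 h1⟩
      refine ⟨(muPLinearEquiv p).symm (MuP.of p t), ?_⟩
      apply sUnits_ext
      show (((MuP.root (p := p) (muPLinearEquiv p ((muPLinearEquiv p).symm (MuP.of p t))) :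
        rootsOfUnity p (AlgebraicClosure ℚ)) : (AlgebraicClosure ℚ)ˣ) : AlgebraicClosure ℚ) = _
      rw [LinearEquiv.apply_symm_apply]
      rfl
    · rintro ⟨m, rfl⟩
      exact H53.p_nsmul_ι (ι := kappa0 p S) m

/-! ## 2. Smooth elements of induced modules; `LCDivisible` for `Ind_U 𝔼` -/

section IndSmooth

variable {G : Type} [Group G] {L : LevelSys G} {k : Type} [CommRing k]

/-- An element acting trivially on `G ⧸ U` acts on `Ind_U B` through the coefficients. -/
lemma indActR_eq_mapRange {U : Subgroup G} (B : Rep.{0, 0, 0} k G) {s : G}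
    (hs : ∀ c : G ⧸ U, s • c = c) (a : (G ⧸ U) →₀ B) :
    indActR U B s a = Finsupp.mapRange.linearMap (B.ρ s) a := by
  have h : (fun c : G ⧸ U => s • c) = id := funext hs
  rw [indActR, h, LinearMap.comp_apply, Finsupp.lmapDomain_apply, Finsupp.mapDomain_id]

/-- For an open subgroup `U`, an element of `Ind_U B` is smooth iff all its values are. -/
lemma isSmoothElt_indR_iff (hN : L.NormalCofinal) {U : Subgroup G} (hU : IsOpenSub L U)
    (B : Rep.{0, 0, 0} k G) (a : (G ⧸ U) →₀ B) :
    IsSmoothElt L (indR U B) a ↔ ∀ c, IsSmoothElt L B (a c) := by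
  obtain ⟨U₀, hU₀, hU₀U⟩ := hU
  constructor
  · rintro ⟨W, hW, hfix⟩ c
    obtain ⟨W', hW', hle⟩ := L.directed W hW U₀ hU₀
    obtain ⟨N, hNl, hNW, hNn⟩ := hN W' hW'
    refine ⟨N, hNl, fun s hs => ?_⟩
    have h1 : indActR U B s a = a := hfix s (hle (hNW hs)).1
    haveI := hNn
    rw [indActR_eq_mapRange B
      (fun c => H323.smul_coset_eq_h323 (fun t ht => hU₀U (hle (hNW ht)).2) hs c) a] at h1
    have := DFunLike.congr_fun h1 c
    simpa using this
  · intro hval
    classical
    have hfin : (Set.range a).Finite := by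
      refine (a.support.finite_toSet.image a |>.union (Set.finite_singleton 0)).subset ?_
      rintro _ ⟨c, rfl⟩
      by_cases hc : a c = 0
      · exact Or.inr hc
      · exact Or.inl ⟨c, Finsupp.mem_support_iff.2 hc, rfl⟩
    obtain ⟨W, hW, hfix⟩ := exists_level_fixing_of_finite (L := L) hfin
      (by rintro _ ⟨c, rfl⟩; exact hval c)
    obtain ⟨W', hW', hle⟩ := L.directed W hW U₀ hU₀
    obtain ⟨N, hNl, hNW, hNn⟩ := hN W' hW'
    refine ⟨N, hNl, fun s hs => ?_⟩
    haveI := hNn
    show indActR U B s a = a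
    rw [indActR_eq_mapRange B
      (fun c => H323.smul_coset_eq_h323 (fun t ht => hU₀U (hle (hNW ht)).2) hs c) a]
    ext c
    simp only [Finsupp.mapRange.linearMap_apply, Finsupp.mapRange_apply]
    exact hfix (a c) ⟨c, rfl⟩ s (hle (hNW hs)).1

/-- Kummer-type divisibility passes to induced modules. -/
lemma kummer_indR (hN : L.NormalCofinal) {U : Subgroup G} (hU : IsOpenSub L U) (p : ℕ)
    (B : Rep.{0, 0, 0} ℤ G)
    (hK : ∀ x : B, IsSmoothElt L B x → ∃ y : B, p • y = x ∧ IsSmoothElt L B y)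
    (a : indR U B) (ha : IsSmoothElt L (indR U B) a) :
    ∃ y : indR U B, p • y = a ∧ IsSmoothElt L (indR U B) y := by
  classical
  have hval := (isSmoothElt_indR_iff hN hU B a).1 ha
  let root : B → B := fun x =>
    if hx0 : x = 0 then 0 else if hx : IsSmoothElt L B x then (hK x hx).choose else 0
  have hroot0 : root 0 = 0 := by simp [root]
  have hroot : ∀ x, IsSmoothElt L B x → p • root x = x ∧ IsSmoothElt L B (root x) := by
    intro x hx
    by_cases hx0 : x = 0
    · subst hx0
      rw [hroot0]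
      exact ⟨smul_zero _, hx⟩
    · simp only [root, dif_neg hx0, dif_pos hx]
      exact (hK x hx).choose_spec
  refine ⟨Finsupp.mapRange root hroot0 (a : (G ⧸ U) →₀ B), ?_, ?_⟩
  · show p • Finsupp.mapRange root hroot0 (a : (G ⧸ U) →₀ B) = a
    ext c
    simp only [Finsupp.smul_apply, Finsupp.mapRange_apply]
    exact (hroot _ (hval c)).1
  · refine (isSmoothElt_indR_iff hN hU B _).2 fun c => ?_
    show IsSmoothElt L B (Finsupp.mapRange root hroot0 (a : (G ⧸ U) →₀ B) c)
    rw [Finsupp.mapRange_apply]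
    exact (hroot _ (hval c)).2

end IndSmooth

/-- `Ind_U 𝔼` is `LCDivisible` (from KUM). -/
theorem lcDivisible_ind_sUnits (hpS : pPrime p ∈ S) (hKUM : K.KummerSpec p S)
    (U : Subgroup GQ) (hU : U ∈ (globalLevels S).levels) :
    LCDivisible (globalLevels S) p (K.indG U (K.sUnits S)) :=
  lcDivisible_of_kummer (H723.globalLevels_normalCofinal S) (H723.globalLevels_finiteIndex S) p _
    (kummer_indR (H723.globalLevels_normalCofinal S) ⟨U, hU, le_rfl⟩ p (K.sUnits S) (hKUM hpS))

/-! ## 3. The local modules `Ind_U ℚ̄_qˣ` -/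

section Local

variable (q : Nat.Primes)

/-- `ℚ̄_qˣ` is `p`-divisible. -/
lemma isPDivisible_unitsQpbar : IsPDivisible p (Tow.unitsQpbar q) := by
  letI : Fact (q : ℕ).Prime := ⟨q.2⟩
  intro b
  let u : (PadicAlgCl (q : ℕ))ˣ := Additive.toMul b
  obtain ⟨z, hz⟩ := IsAlgClosed.exists_pow_nat_eq (u : PadicAlgCl (q : ℕ))
    (Fact.out : p.Prime).pos
  have hz0 : z ≠ 0 := by
    rintro rfl
    rw [zero_pow (Fact.out : p.Prime).ne_zero] at hz
    exact u.ne_zero hz.symm
  refine ⟨Additive.ofMul (Units.mk0 z hz0), ?_⟩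
  apply Additive.toMul.injective
  apply Units.ext
  exact hz

/-- `ℚ̄_qˣ` is smooth for the local level system (Krasner). -/
lemma isSmooth_unitsQpbar : (localLevels q).IsSmooth (Tow.unitsQpbar q) := by
  letI : Fact (q : ℕ).Prime := ⟨q.2⟩
  intro b
  let u : (PadicAlgCl (q : ℕ))ˣ := Additive.toMul b
  obtain ⟨c, hc⟩ := exists_global_generator (q : ℕ) (u : PadicAlgCl (q : ℕ))
  haveI : Algebra.IsAlgebraic ℚ (AlgebraicClosure ℚ) := AlgebraicClosure.isAlgebraic ℚ
  haveI : FiniteDimensional ℚ (IntermediateField.adjoin ℚ {c}) :=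
    IntermediateField.adjoin.finiteDimensional (Algebra.IsIntegral.isIntegral c)
  refine ⟨_, ⟨IntermediateField.adjoin ℚ {c}, inferInstance, rfl⟩, fun s hs => ?_⟩
  have hs' : rl q s ∈ (IntermediateField.adjoin ℚ {c}).fixingSubgroup := hs
  have hsc : rl q s c = c := by
    have := (IntermediateField.mem_fixingSubgroup_iff _ _).1 hs' c
      (IntermediateField.mem_adjoin_simple_self ℚ c)
    exact this
  let τ : PadicAlgCl (q : ℕ) ≃ₐ[ℚ_[(q : ℕ)]] PadicAlgCl (q : ℕ) := s
  have h1 : τ (u : PadicAlgCl (q : ℕ)) = u := fixes_adjoin_of_fixes (q : ℕ) τ c hsc _ hc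
  apply Additive.toMul.injective
  apply Units.ext
  exact h1

variable {q}

/-- `𝔼 → ℚ̄_qˣ` is equivariant along `G_{ℚ_q} → G_ℚ`. -/
lemma locE_equivariant (g : Gl q) (e : K.sUnits S) :
    K.locE q S ((K.sUnits S).ρ (rl q g) e) = (Tow.unitsQpbar q).ρ g (K.locE q S e) := by
  letI : Fact (q : ℕ).Prime := ⟨q.2⟩
  apply Additive.toMul.injective
  apply Units.ext
  exact padicEmbedding_localGaloisToGlobal (q : ℕ) g _

lemma locE_injective : Function.Injective (K.locE q S) := by
  letI : Fact (q : ℕ).Prime := ⟨q.2⟩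
  intro a b hab
  apply sUnits_ext
  have h1 := congrArg (fun t : Tow.unitsQpbar q =>
    ((Additive.toMul t : (PadicAlgCl (q : ℕ))ˣ) : PadicAlgCl (q : ℕ))) hab
  exact (padicEmbedding (q : ℕ)).toRingHom.injective h1

variable (q)

/-- `μ_p → ℚ̄_qˣ`. -/
def locMu : (mu p) →+ (Tow.unitsQpbar q) :=
  (K.locE q S).toAddMonoidHom.comp (kappa0 p S)

/-- `μ_p → ℚ̄_qˣ` is a Kummer embedding of `μ_p|_{G_q}`. -/
theorem isKummerEmb_locMu :
    IsKummerEmb p (Rep.res (rl q) (mu p)) (Tow.unitsQpbar q) (locMu p S q) where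
  injective := (locE_injective S).comp (isKummerEmb_kappa0 p S).injective
  equivariant := by
    intro g m
    show K.locE q S (kappa0 p S ((mu p).ρ (rl q g) m)) = _
    rw [(isKummerEmb_kappa0 p S).equivariant, locE_equivariant]
    rfl
  range_eq := by
    letI : Fact (q : ℕ).Prime := ⟨q.2⟩
    haveI : NeZero p := ⟨(Fact.out : p.Prime).ne_zero⟩
    intro b
    constructor
    · intro hb
      obtain ⟨ζ, hζ⟩ := HasEnoughRootsOfUnity.exists_primitiveRoot (AlgebraicClosure ℚ) p
      have hζ' : IsPrimitiveRoot (padicEmbedding (q : ℕ) ζ) p :=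
        hζ.map_of_injective (padicEmbedding (q : ℕ)).toRingHom.injective
      let u : (PadicAlgCl (q : ℕ))ˣ := Additive.toMul b
      have hu : (u : PadicAlgCl (q : ℕ)) ^ p = 1 := by
        have := congrArg (fun t : Tow.unitsQpbar q =>
          ((Additive.toMul t : (PadicAlgCl (q : ℕ))ˣ) : PadicAlgCl (q : ℕ))) hb
        exact this
      obtain ⟨i, -, hi⟩ := hζ'.eq_pow_of_pow_eq_one hu
      have hζ0 : ζ ≠ 0 := hζ.ne_zero (Fact.out : p.Prime).ne_zero
      let w : K.Qbarˣ := (Units.mk0 ζ hζ0) ^ i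
      have hw : w ^ p = 1 := by
        apply Units.ext
        simp only [w, Units.val_pow_eq_pow_val, Units.val_mk0, Units.val_one]
        rw [← pow_mul, mul_comm, pow_mul, hζ.pow_eq_one, one_pow]
      let e : K.sUnits S := ⟨Additive.ofMul w,
        K.isSUnit_of_pow_eq_one S (Fact.out : p.Prime).ne_zero hw⟩
      have he : p • e = 0 := by
        apply sUnits_ext
        show ((w : K.Qbarˣ) : K.Qbar) ^ p = 1
        rw [← Units.val_pow_eq_pow_val, hw, Units.val_one]
      obtain ⟨m, hm⟩ := ((isKummerEmb_kappa0 p S).range_eq e).1 he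
      refine ⟨m, ?_⟩
      show K.locE q S (kappa0 p S m) = b
      rw [hm]
      apply Additive.toMul.injective
      apply Units.ext
      show padicEmbedding (q : ℕ) ((w : K.Qbarˣ) : K.Qbar) = (u : PadicAlgCl (q : ℕ))
      simp only [w, Units.val_pow_eq_pow_val, Units.val_mk0, map_pow]
      exact hi
    · rintro ⟨m, rfl⟩
      exact H53.p_nsmul_ι (ι := locMu p S q) m

end Local

/-! ## 4. Induced modules along `φ : H → G` -/

section IndRes

variable {G H : Type} [Group G] [Group H] (φ : H →* G) (U : Subgroup G)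

/-- Finitely supported functions: the `p`-torsion is the image of `mapRange ι`. -/
lemma mapRange_range_eq {p : ℕ} {X M B : Type} [AddCommGroup M] [AddCommGroup B] (ι : M →+ B)
    (hinj : Function.Injective ι) (hr : ∀ y : B, p • y = 0 ↔ y ∈ Set.range ι) (b : X →₀ B) :
    p • b = 0 ↔ b ∈ Set.range (Finsupp.mapRange.addMonoidHom ι : (X →₀ M) →+ (X →₀ B)) := by
  constructor
  · intro hb
    classical
    have hmem : ∀ y : B, p • y = 0 → ∃ m : M, ι m = y := fun y hy => (hr y).1 hy
    let f : B → M := fun y => if h : ∃ m : M, ι m = y then h.choose else 0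
    have hf0 : f 0 = 0 := by
      have h : ∃ m : M, ι m = 0 := ⟨0, map_zero ι⟩
      have h2 : ι (f 0) = ι 0 := by
        simp only [f, dif_pos h, map_zero]
        exact h.choose_spec
      exact hinj h2
    have hfy : ∀ y : B, p • y = 0 → ι (f y) = y := by
      intro y hy
      have h := hmem y hy
      simp only [f, dif_pos h]
      exact h.choose_spec
    refine ⟨Finsupp.mapRange f hf0 b, ?_⟩
    ext x
    rw [Finsupp.mapRange.addMonoidHom_apply, Finsupp.mapRange_apply, Finsupp.mapRange_apply]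
    apply hfy
    have := DFunLike.congr_fun hb x
    simpa using this
  · rintro ⟨m, rfl⟩
    ext x
    rw [Finsupp.smul_apply, Finsupp.mapRange.addMonoidHom_apply, Finsupp.mapRange_apply,
      Finsupp.zero_apply]
    exact (hr _).2 ⟨m x, rfl⟩

/-- `Ind_U` (along `φ`) of a Kummer embedding is a Kummer embedding. -/
theorem isKummerEmb_ind_res {p : ℕ} [Fact p.Prime] (M : Rep.{0, 0, 0} (ZMod p) G)
    (B : Rep.{0, 0, 0} ℤ H) (ι : M →+ B) (hK : IsKummerEmb p (Rep.res φ M) B ι) :
    IsKummerEmb p (Rep.res φ (indRep U M)) (K.ind φ U B)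
      (Finsupp.mapRange.addMonoidHom ι : ((G ⧸ U) →₀ M) →+ ((G ⧸ U) →₀ B)) where
  injective := Finsupp.mapRange_injective ι (map_zero ι) hK.injective
  equivariant := by
    intro g m
    change Finsupp.mapRange.addMonoidHom ι (indAct U M (φ g) m) =
      K.indρ φ U B g (Finsupp.mapRange.addMonoidHom ι m)
    induction m using Finsupp.induction_linear with
    | zero => simp
    | add a b ha hb => rw [map_add, map_add, map_add, map_add, ha, hb]
    | single x m =>
      rw [indAct_single, Finsupp.mapRange.addMonoidHom_apply, Finsupp.mapRange_single,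
        Finsupp.mapRange.addMonoidHom_apply, Finsupp.mapRange_single, K.indρ_single]
      congr 1
      exact hK.equivariant g m
  range_eq := fun b => mapRange_range_eq (X := G ⧸ U) ι hK.injective hK.range_eq b

/-- `Ind_U B` (along `φ`) is smooth if `B` is, `U` is normal and `φ⁻¹ U` is open. -/
theorem isSmooth_ind_res (L' : LevelSys H) [hUn : U.Normal]
    (hU : ∃ N₀ ∈ L'.levels, N₀ ≤ U.comap φ) {k : Type} [CommRing k]
    (B : Rep.{0, 0, 0} k H) (hB : L'.IsSmooth B) : L'.IsSmooth (K.ind φ U B) := by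
  obtain ⟨N₀, hN₀, hN₀U⟩ := hU
  intro a
  change ∃ W ∈ L'.levels, ∀ s ∈ W, K.indρ φ U B s a = a
  induction a using Finsupp.induction_linear with
  | zero => exact ⟨N₀, hN₀, fun s _ => map_zero _⟩
  | add a b ha hb =>
    obtain ⟨U₁, hU₁, h₁⟩ := ha
    obtain ⟨U₂, hU₂, h₂⟩ := hb
    obtain ⟨W, hW, hWle⟩ := L'.directed U₁ hU₁ U₂ hU₂
    exact ⟨W, hW, fun s hs => by rw [map_add, h₁ s (hWle hs).1, h₂ s (hWle hs).2]⟩
  | single x b =>
    obtain ⟨U₁, hU₁, h₁⟩ := hB b
    obtain ⟨W, hW, hWle⟩ := L'.directed N₀ hN₀ U₁ hU₁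
    refine ⟨W, hW, fun s hs => ?_⟩
    rw [K.indρ_single, h₁ s (hWle hs).2,
      H323.smul_coset_eq_h323 (le_refl U) (hN₀U (hWle hs).1)]

end IndRes

/-! ## 5. GO4 and the main theorem -/

/-- **GO4** (arithmetic input of layer K, cochain form, conventions of `K/Spec.lean`).
For a normal level `U` acting trivially on `μ_p` (`K = ℚ̄^U ⊇ ℚ(μ_p)`), the cokernel of
`H²(G_S(K), 𝒪_Sˣ)[p] → ∏_{q ∈ S} H²(G_q, Ind_U ℚ̄_qˣ)[p] = ⊕_{w ∣ S} Br(K_w)[p]`
has at most `p` elements: any two families of local classes killed by `p` are linearly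
dependent (over `F_p`) modulo the global classes killed by `p`.
(Classically: the image is the kernel of the sum of the local invariants.) -/
def GO4Spec : Prop :=
  p ≠ 2 → pPrime p ∈ S →
  ∀ U : Subgroup GQ, U ∈ (globalLevels S).levels → U.Normal → (∀ s ∈ U, (mu p).ρ s = 1) →
    TwoFamily (ι := ↥S) (globalLevels S) (fun v => localLevels v.1) (fun v => rl v.1) p
      (K.indG U (K.sUnits S)) (fun v => K.ind (rl v.1) U (Tow.unitsQpbar v.1))
      (fun v => (K.indLocE v.1 S U).toAddMonoidHom)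

/-- **Semi-local Hilbert 90.**  `H¹_lc(G_q, Ind_U ℚ̄_qˣ) = 0` for a normal global level `U`
(`= ⊕_{w ∣ q} H¹(K_w, ℚ̄_qˣ)`, `K = ℚ̄^U`). -/
def SemiLocalH90Spec : Prop :=
  ∀ (v : ↥S) (U : Subgroup GQ), U ∈ (globalLevels S).levels → U.Normal →
    H1Vanish (localLevels v.1) (K.ind (rl v.1) U (Tow.unitsQpbar v.1))

lemma indLocE_equivariant (q : Nat.Primes) (U : Subgroup GQ) (g : Gl q)
    (e : K.indG U (K.sUnits S)) :
    K.indLocE q S U ((K.indG U (K.sUnits S)).ρ (rl q g) e) =
      (K.ind (rl q) U (Tow.unitsQpbar q)).ρ g (K.indLocE q S U e) := by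
  change Finsupp.mapRange.linearMap (K.locE q S)
      (K.indρ (MonoidHom.id GQ) U (K.sUnits S) (rl q g) e) =
    K.indρ (rl q) U (Tow.unitsQpbar q) g (Finsupp.mapRange.linearMap (K.locE q S) e)
  induction e using Finsupp.induction_linear with
  | zero => simp
  | add a b ha hb => rw [map_add, map_add, map_add, map_add, ha, hb]
  | single x m =>
    rw [K.indρ_single, Finsupp.mapRange.linearMap_apply, Finsupp.mapRange_single,
      Finsupp.mapRange.linearMap_apply, Finsupp.mapRange_single, K.indρ_single,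
      locE_equivariant]
    rfl

lemma indLocE_comp_indEmb (q : Nat.Primes) (U : Subgroup GQ) :
    ((K.indLocE q S U).toAddMonoidHom.comp (indEmb p U (mu p) (K.sUnits S) (kappa0 p S)) :
      ((GQ ⧸ U) →₀ (mu p)) →+ ((GQ ⧸ U) →₀ (Tow.unitsQpbar q))) =
      Finsupp.mapRange.addMonoidHom (locMu p S q) := by
  apply AddMonoidHom.ext
  intro m
  change Finsupp.mapRange (K.locE q S) (map_zero _)
      (Finsupp.mapRange (kappa0 p S) (map_zero _) m) =
    Finsupp.mapRange (locMu p S q) (map_zero _) m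
  ext c
  simp only [Finsupp.mapRange_apply]
  rfl

/-- **INV-COK.**  `GlobCokerSpec` from KUM, GO4 and semi-local Hilbert 90. -/
theorem globCoker_of (hp2 : p ≠ 2) (hpS : pPrime p ∈ S) (hKUM : K.KummerSpec p S)
    (hH90 : SemiLocalH90Spec S) (hGO4 : GO4Spec p S) : GlobCokerSpec p S := by
  intro U hU hUn hUμ
  haveI := hUn
  refine exists_functional_of_twoFamily (hrl S) (p := p) (M := indRep U (mu p))
    (E := K.indG U (K.sUnits S))
    (κ := indEmb p U (mu p) (K.sUnits S) (kappa0 p S))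
    (B := fun v => K.ind (rl v.1) U (Tow.unitsQpbar v.1))
    (lam := fun v => (K.indLocE v.1 S U).toAddMonoidHom)
    (lcDivisible_ind_sUnits p S hpS hKUM U hU)
    (H323.isKummerEmb_ind_h323 p _ _ _ U (isKummerEmb_kappa0 p S))
    (fun v g e => indLocE_equivariant S v.1 U g e)
    (fun v => isSmooth_ind_res (rl v.1) U (localLevels v.1) (hrl S v U hU) _
      (isSmooth_unitsQpbar v.1))
    (fun v => H323.isPDivisible_finsupp_h323 p (isPDivisible_unitsQpbar p v.1))
    (fun v => ?_) (fun v => hH90 v U hU hUn) (hGO4 hp2 hpS U hU hUn hUμ)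
  have h := isKummerEmb_ind_res (rl v.1) U (mu p) (Tow.unitsQpbar v.1) (locMu p S v.1)
    (isKummerEmb_locMu p S v.1)
  rw [← indLocE_comp_indEmb] at h
  exact h

end Fermat.Agent.S55.Inv.H99
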