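/-
S55 (Poitou–Tate), route C′, input `InvSpec`, leaf INV-COK (helper99), part 3:
semi-local Hilbert 90, unconditionally, and

    globCoker_of' : p ≠ 2 → pPrime p ∈ S → K.KummerSpec p S → GO4Spec p S → Inv.GlobCokerSpec p S,
    globCoker_of_GO4 : p ≠ 2 → pPrime p ∈ S → GO4Spec p S → Inv.GlobCokerSpec p S
    (KUM = `K.H724.kummer`, on main).

* `h1Vanish_ind_of_stab` : Shapiro in degree 1, cochain form (any `φ : H → G`, `U ≤ G` of finite
  index, `B : Rep ℤ H`): if the level-constant 1-cocycles of the stabilisers are coboundaries,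
  then `H¹_lc(H, Ind_U B) = 0`.
* `hilbert90_open` : Hilbert 90 for the open subgroups of `G_{ℚ_q}` acting on `ℚ̄_qˣ`
  (Poincaré series, `G/Rec/K5H379`, with the number field cut out by a level as monoid).
* `semiLocalH90 : SemiLocalH90Spec S`.
-/
import Fermat.Agent.S55.Inv.CokH99
import Fermat.Agent.S55.G.Rec.K5H379.Poincare
import Fermat.Agent.S55.K.KummerH724

set_option autoImplicit false
set_option linter.style.haveILetI false
set_option linter.unusedSectionVars false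
noncomputable section
namespace Fermat.Agent.S55.Inv.H99

open groupCohomology ExtCitation Fermat.Agent.S55.PT Fermat.Agent.S55.KC Fermat.Agent.S55.Bridge

/-! ## 1. Shapiro in degree 1 (cochain form) -/

section Shapiro1

variable {G H : Type} [Group G] [Group H] (φ : H →* G) (U : Subgroup G)
  (B : Rep.{0, 0, 0} ℤ H)

/-- The stabiliser in `H` of a coset `x ∈ G ⧸ U` (`H` acts through `φ`). -/
def stab (x : G ⧸ U) : Subgroup H := (MulAction.stabilizer G x).comap φ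

lemma mem_stab_iff (x : G ⧸ U) (s : H) : s ∈ stab φ U x ↔ φ s • x = x := Iff.rfl

/-- Evaluation of the action on `Ind_U B`. -/
lemma indρ_apply (g : H) (a : (G ⧸ U) →₀ B) (y : G ⧸ U) :
    (K.indρ φ U B g a) y = B.ρ g (a ((φ g)⁻¹ • y)) := by
  have h1 : K.indρ φ U B g a =
      Finsupp.mapDomain (fun x : G ⧸ U => φ g • x) (Finsupp.mapRange (B.ρ g) (map_zero _) a) :=
    rfl
  have h2 : y = (fun x : G ⧸ U => φ g • x) ((φ g)⁻¹ • y) := by
    simp
  rw [h1]
  conv_lhs => rw [h2]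
  rw [Finsupp.mapDomain_apply (MulAction.injective (φ g)), Finsupp.mapRange_apply]

/-- **Shapiro in degree 1, cochain form.**  If for every coset `x` the level-constant 1-cocycles
of the stabiliser of `x` with values in `B` are coboundaries, then `H¹_lc(H, Ind_U B) = 0`. -/
theorem h1Vanish_ind_of_stab (L' : LevelSys H) [Finite (G ⧸ U)]
    (hstab : ∀ (x : G ⧸ U) (ψ : H → B),
      (∀ s ∈ stab φ U x, ∀ t ∈ stab φ U x, ψ (s * t) = B.ρ s (ψ t) + ψ s) →
      L'.IsLC₁ ψ →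
      ∃ a₀ : B, ∀ s ∈ stab φ U x, B.ρ s a₀ - a₀ = ψ s) :
    H1Vanish L' (K.ind φ U B) := by
  classical
  intro f hf hflc
  let F : H → ((G ⧸ U) →₀ B) := f
  have hcoc : ∀ g h : H, F (g * h) = K.indρ φ U B g (F h) + F g := fun g h =>
    (mem_cocycles₁_iff f).1 hf g h
  have hcocy : ∀ (g h : H) (y : G ⧸ U), F (g * h) y = B.ρ g (F h ((φ g)⁻¹ • y)) + F g y := by
    intro g h y
    rw [hcoc, Finsupp.add_apply, indρ_apply]
  -- the components are cocycles on the stabilisers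
  have hψ : ∀ x : G ⧸ U, ∃ a₀ : B, ∀ s ∈ stab φ U x, B.ρ s a₀ - a₀ = F s x := by
    intro x
    refine hstab x (fun s => F s x) ?_ ?_
    · intro s hs t _
      show F (s * t) x = B.ρ s (F t x) + F s x
      rw [hcocy]
      have h1 : (φ s)⁻¹ • x = x := by
        have h2 : φ s • x = x := hs
        rw [inv_smul_eq_iff, h2]
      rw [h1]
    · obtain ⟨W, hW, h⟩ := hflc
      refine ⟨W, hW, fun g s hs => ?_⟩
      show F (g * s) x = F g x
      have : F (g * s) = F g := h g s hs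
      rw [this]
  choose a₀ ha₀ using hψ
  -- orbit representatives
  let P : G ⧸ U → G ⧸ U → Prop := fun y y' => ∃ h : H, φ h • y' = y
  have hPne : ∀ y, ∃ y', P y y' := fun y => ⟨y, 1, by simp⟩
  haveI : Nonempty (G ⧸ U) := ⟨((1 : G) : G ⧸ U)⟩
  let rep : G ⧸ U → G ⧸ U := fun y => Classical.epsilon (P y)
  have hrep : ∀ y, P y (rep y) := fun y => Classical.epsilon_spec (hPne y)
  have hP_eq : ∀ (h : H) (y : G ⧸ U), P (φ h • y) = P y := by
    intro h y
    funext y'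
    apply propext
    constructor
    · rintro ⟨h', hh'⟩
      refine ⟨h⁻¹ * h', ?_⟩
      rw [map_mul, mul_smul, hh', map_inv, inv_smul_smul]
    · rintro ⟨h', hh'⟩
      refine ⟨h * h', ?_⟩
      rw [map_mul, mul_smul, hh']
  have hrep_eq : ∀ (h : H) (y : G ⧸ U), rep (φ h • y) = rep y := by
    intro h y
    show Classical.epsilon (P (φ h • y)) = Classical.epsilon (P y)
    rw [hP_eq]
  choose gy hgy using hrep
  -- the primitive
  let a : G ⧸ U → B := fun y => B.ρ (gy y) (a₀ (rep y)) - F (gy y) y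
  let a' : (G ⧸ U) →₀ B := Finsupp.equivFunOnFinite.symm a
  have ha' : ∀ y, a' y = a y := fun y => rfl
  refine ⟨a', ?_⟩
  funext h
  change K.indρ φ U B h a' - a' = F h
  ext y
  rw [Finsupp.sub_apply, indρ_apply, ha', ha']
  -- notation
  set y' : G ⧸ U := (φ h)⁻¹ • y with hy'
  have hyy' : y' = φ h⁻¹ • y := by rw [hy', map_inv]
  have hrep' : rep y' = rep y := by rw [hyy', hrep_eq]
  set g' : H := gy y' with hg'
  have hg'y : φ g' • rep y = y' := by
    have := hgy y'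
    rwa [hrep'] at this
  set s : H := (gy y)⁻¹ * h * g' with hs
  have hsmem : s ∈ stab φ U (rep y) := by
    show φ s • rep y = rep y
    rw [hs, map_mul, map_mul, mul_smul, mul_smul, hg'y, hy', smul_inv_smul, map_inv,
      inv_smul_eq_iff, hgy y]
  have hmul : h * g' = gy y * s := by
    rw [hs]; group
  -- (1)
  have e1 : F (h * g') y = B.ρ h (F g' y') + F h y := hcocy h g' y
  -- (2)
  have e2 : F (h * g') y = B.ρ (gy y) (F s (rep y)) + F (gy y) y := by
    rw [hmul, hcocy]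
    have : (φ (gy y))⁻¹ • y = rep y := by
      rw [inv_smul_eq_iff, hgy y]
    rw [this]
  -- (3)
  have e3 : B.ρ s (a₀ (rep y)) - a₀ (rep y) = F s (rep y) := ha₀ (rep y) s hsmem
  -- (4)
  have e4a : ∀ (g₁ g₂ : H) (v : B), B.ρ (g₁ * g₂) v = B.ρ g₁ (B.ρ g₂ v) := fun g₁ g₂ v => by
    rw [map_mul]; rfl
  have e4 : B.ρ h (B.ρ g' (a₀ (rep y))) = B.ρ (gy y) (B.ρ s (a₀ (rep y))) := by
    rw [← e4a, ← e4a, hmul]
  show B.ρ h (a y') - a y = F h y
  simp only [a]
  rw [hrep', map_sub, e4]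
  have e5 : B.ρ s (a₀ (rep y)) = a₀ (rep y) + F s (rep y) := by
    rw [← e3]; abel
  rw [e5, map_add]
  have e6 : B.ρ h (F g' y') = B.ρ (gy y) (F s (rep y)) + F (gy y) y - F h y := by
    rw [← e2, e1]; abel
  rw [e6]
  abel

end Shapiro1

/-! ## 2. Hilbert 90 for the open subgroups of `G_{ℚ_q}` -/

section H90

variable (q : Nat.Primes)

/-- **Hilbert 90 for open subgroups of `G_{ℚ_q}`** (cochain form).  A level-constant function
`ψ : G_q → ℚ̄_qˣ` which is a 1-cocycle on the open subgroup `H'` is a coboundary on `H'`.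
(Poincaré series: `G/Rec/K5H379`.) -/
theorem hilbert90_open (H' : Subgroup (Gl q))
    (hopen : ∃ W ∈ (localLevels q).levels, W ≤ H') (ψ : Gl q → Tow.unitsQpbar q)
    (hψ : ∀ s ∈ H', ∀ t ∈ H', ψ (s * t) = (Tow.unitsQpbar q).ρ s (ψ t) + ψ s)
    (hlc : (localLevels q).IsLC₁ ψ) :
    ∃ a₀ : Tow.unitsQpbar q, ∀ s ∈ H', (Tow.unitsQpbar q).ρ s a₀ - a₀ = ψ s := by
  letI : Fact (q : ℕ).Prime := ⟨q.2⟩
  -- a common level
  obtain ⟨W₁, hW₁, hW₁H⟩ := hopen
  obtain ⟨W₀, hW₀, hψW₀⟩ := hlc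
  obtain ⟨W, hW, hWle⟩ := (localLevels q).directed W₀ hW₀ W₁ hW₁
  obtain ⟨F, hF, rfl⟩ := hW
  haveI : (F.fixingSubgroup.comap (rl q)).FiniteIndex :=
    H723.pullbackLevels_finiteIndex (rl q) _ ⟨F, hF, rfl⟩
  -- the action of `H'` on `ℚ̄_q`
  let toAut : Gl q →* (PadicAlgCl (q : ℕ) ≃ₐ[ℚ_[(q : ℕ)]] PadicAlgCl (q : ℕ)) := MonoidHom.id _
  letI : MulSemiringAction (↥H') (PadicAlgCl (q : ℕ)) :=
    MulSemiringAction.compHom (PadicAlgCl (q : ℕ)) (toAut.comp H'.subtype)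
  have hsmul : ∀ (g : ↥H') (z : PadicAlgCl (q : ℕ)), g • z = toAut (g : Gl q) z := fun _ _ => rfl
  have hemb : ∀ (g : Gl q) (z : AlgebraicClosure ℚ),
      toAut g (padicEmbedding (q : ℕ) z) = padicEmbedding (q : ℕ) (rl q g z) := fun g z =>
    (padicEmbedding_localGaloisToGlobal (q : ℕ) g z).symm
  -- the monoid `F` and its image
  let ι : ↥F →* PadicAlgCl (q : ℕ) :=
    ((padicEmbedding (q : ℕ)).toRingHom.comp (algebraMap ↥F (AlgebraicClosure ℚ)) :
      ↥F →+* PadicAlgCl (q : ℕ)).toMonoidHom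
  have hι : ∀ z : ↥F, ι z = padicEmbedding (q : ℕ) (z : AlgebraicClosure ℚ) := fun _ => rfl
  let N : Subgroup ↥H' := (F.fixingSubgroup.comap (rl q)).subgroupOf H'
  have hfix : ∀ s ∈ N, ∀ z, s • ι z = ι z := by
    intro s hs z
    have hs' : rl q (s : Gl q) ∈ F.fixingSubgroup := hs
    rw [hsmul, hι, hemb]
    congr 1
    exact (IntermediateField.mem_fixingSubgroup_iff _ _).1 hs' z z.2
  have hN : ∀ g : ↥H', (∀ z, g • ι z = ι z) → g ∈ N := by
    intro g hg
    show rl q (g : Gl q) ∈ F.fixingSubgroup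
    rw [IntermediateField.mem_fixingSubgroup_iff]
    intro z hz
    have := hg ⟨z, hz⟩
    rw [hsmul, hι, hemb] at this
    exact (padicEmbedding (q : ℕ)).toRingHom.injective this
  -- the cocycle
  let φ' : ↥H' → PadicAlgCl (q : ℕ) := fun g =>
    ((Additive.toMul (ψ (g : Gl q)) : (PadicAlgCl (q : ℕ))ˣ) : PadicAlgCl (q : ℕ))
  have hφ0 : ∀ g, φ' g ≠ 0 := fun g => Units.ne_zero _
  have hφ : ∀ g h, φ' (g * h) = φ' g * g • φ' h := by
    intro g h
    have h1 := hψ g g.2 h h.2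
    have h2 := congrArg (fun t : Tow.unitsQpbar q =>
      ((Additive.toMul t : (PadicAlgCl (q : ℕ))ˣ) : PadicAlgCl (q : ℕ))) h1
    show ((Additive.toMul (ψ ((g : Gl q) * (h : Gl q))) : (PadicAlgCl (q : ℕ))ˣ) :
      PadicAlgCl (q : ℕ)) = _
    rw [mul_comm]
    exact h2
  have hlev : ∀ g, ∀ s ∈ N, φ' (g * s) = φ' g := by
    intro g s hs
    show ((Additive.toMul (ψ ((g : Gl q) * (s : Gl q))) : (PadicAlgCl (q : ℕ))ˣ) :
      PadicAlgCl (q : ℕ)) = _
    rw [hψW₀ g s (hWle hs).1]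
  obtain ⟨c, hc, hcφ⟩ := G.Rec.K5H379.exists_mul_smul_eq ι N hfix hN φ' hφ0 hφ hlev
  refine ⟨Additive.ofMul (Units.mk0 c⁻¹ (inv_ne_zero hc)), fun s hs => ?_⟩
  apply Additive.toMul.injective
  apply Units.ext
  have h3 := hcφ ⟨s, hs⟩
  -- `φ' s * s c = c`
  show toAut s c⁻¹ / c⁻¹ = φ' ⟨s, hs⟩
  have h4 : φ' ⟨s, hs⟩ * toAut s c = c := h3
  have hsc : toAut s c ≠ 0 := by
    intro h0
    rw [h0, mul_zero] at h4
    exact hc h4.symm
  have h5 : (toAut s c)⁻¹ * c = φ' ⟨s, hs⟩ := by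
    rw [inv_mul_eq_iff_eq_mul₀ hsc, mul_comm]
    exact h4.symm
  rw [map_inv₀, div_inv_eq_mul]
  exact h5

end H90

/-! ## 3. Semi-local Hilbert 90 and INV-COK -/

variable (p : ℕ) [Fact p.Prime] (S : Finset Nat.Primes)

/-- **Semi-local Hilbert 90**: `H¹_lc(G_q, Ind_U ℚ̄_qˣ) = 0`. -/
theorem semiLocalH90 : SemiLocalH90Spec S := by
  intro v U hU hUn
  haveI := hUn
  haveI : U.FiniteIndex := H723.globalLevels_finiteIndex S U hU
  refine h1Vanish_ind_of_stab (rl v.1) U (Tow.unitsQpbar v.1) (localLevels v.1)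
    (fun x ψ hψ hlc => ?_)
  refine hilbert90_open v.1 (stab (rl v.1) U x) ?_ ψ hψ hlc
  obtain ⟨W, hW, hWU⟩ := hrl S v U hU
  exact ⟨W, hW, fun s hs => H323.smul_coset_eq_h323 (le_refl U) (hWU hs) x⟩

/-- **INV-COK.**  `GlobCokerSpec` from KUM and GO4. -/
theorem globCoker_of' (hp2 : p ≠ 2) (hpS : pPrime p ∈ S) (hKUM : K.KummerSpec p S)
    (hGO4 : GO4Spec p S) : GlobCokerSpec p S :=
  globCoker_of p S hp2 hpS hKUM (semiLocalH90 S) hGO4

/-- **INV-COK, final form.**  `GlobCokerSpec` from GO4 alone (KUM: `K.H724.kummer`). -/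
theorem globCoker_of_GO4 (hp2 : p ≠ 2) (hpS : pPrime p ∈ S) (hGO4 : GO4Spec p S) :
    GlobCokerSpec p S :=
  globCoker_of' p S hp2 hpS (K.H724.kummer p S) hGO4

end Fermat.Agent.S55.Inv.H99
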