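/-
S55 (Poitou–Tate), route C′, input `InvSpec`, leaf INV-COK (helper99), part 4: the adapters for the
FROZEN interface `Inv/SpecK.lean` (sub-architect helper3).

Proved here, unconditionally:
* `isKummerEmb_muToL`     : `μ_p = muP p → ℚ̄_qˣ` is a Kummer embedding of `muP p |_{G_q}`;
* `h1Vanish_unitsQpbar`   : Hilbert 90, `H¹_lc(G_q, ℚ̄_qˣ) = 0`;
* `locKummerInj`          : `Inv.LocKummerInjSpec p S`      (LKI);
* `isKummerEmb_indMuToL`  : `Ind_U μ_p → Ind_U ℚ̄_qˣ` is a Kummer embedding;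
* `locKummerInjInd`       : `Inv.LocKummerInjIndSpec p S`   (LKI-Ind).

Adapters:
* `go4_of_cokerE`         : `Inv.CokerESpec p S → GO4Spec p S`;
* `globCoker_of_cokerE`   : `p ≠ 2 → pPrime p ∈ S → Inv.CokerESpec p S → Inv.GlobCokerSpec p S`
                            (leaf INV-COK: only the arithmetic core GO4 = `CokerESpec` remains).
-/
import Fermat.Agent.S55.Inv.H90H99
import Fermat.Agent.S55.Inv.SpecK

set_option autoImplicit false
set_option linter.style.haveILetI false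
set_option linter.unusedSectionVars false
noncomputable section
namespace Fermat.Agent.S55.Inv.H99

open groupCohomology ExtCitation Fermat.Agent.S55.PT Fermat.Agent.S55.KC Fermat.Agent.S55.Bridge

variable (p : ℕ) [Fact p.Prime] (S : Finset Nat.Primes)

/-! ## 1. `μ_p = muP p` versus `μ_p = F_p(χ_p) = mu p` -/

example (U : Subgroup GQ) : indRep U (muP p) = K.indG U (muP p) := rfl

/-- the identification `F_p(χ_p) ≃ μ_p` is equivariant -/
lemma muPLinearEquiv_equivariant (g : GQ) (m : mu p) :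
    muPLinearEquiv p ((mu p).ρ g m) = (muP p).ρ g (muPLinearEquiv p m) :=
  LinearMap.congr_fun ((muPRepEquivOfChar p).isIntertwining' g) m

lemma locMu_eq (q : Nat.Primes) (m : mu p) :
    locMu p S q m = muToL p S q (muPLinearEquiv p m) := rfl

lemma muToL_eq (q : Nat.Primes) (a : MuP p) :
    muToL p S q a = locMu p S q ((muPLinearEquiv p).symm a) := by
  rw [locMu_eq, LinearEquiv.apply_symm_apply]

lemma muToL_injective' (q : Nat.Primes) (a b : MuP p)
    (hab : muToL p S q a = muToL p S q b) : a = b := by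
  rw [muToL_eq, muToL_eq] at hab
  exact (muPLinearEquiv p).symm.injective ((isKummerEmb_locMu p S q).injective hab)

lemma muToL_equivariant' (q : Nat.Primes) (g : Gl q) (m : MuP p) :
    muToL p S q (muPRep p (rl q g) m) = (Tow.unitsQpbar q).ρ g (muToL p S q m) := by
  have h := (isKummerEmb_locMu p S q).equivariant g ((muPLinearEquiv p).symm m)
  rw [← muToL_eq] at h
  rw [← h, locMu_eq]
  congr 1
  have h2 := muPLinearEquiv_equivariant p (rl q g) ((muPLinearEquiv p).symm m)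
  rw [LinearEquiv.apply_symm_apply] at h2
  exact h2.symm

lemma muToL_range' (q : Nat.Primes) (b : Tow.unitsQpbar q) :
    p • b = 0 ↔ ∃ m : MuP p, muToL p S q m = b := by
  rw [(isKummerEmb_locMu p S q).range_eq b]
  constructor
  · rintro ⟨m, rfl⟩
    exact ⟨muPLinearEquiv p m, rfl⟩
  · rintro ⟨m, rfl⟩
    exact ⟨(muPLinearEquiv p).symm m, (muToL_eq p S q m).symm⟩

/-- `μ_p → ℚ̄_qˣ` is a Kummer embedding of `muP p |_{G_q}`. -/
theorem isKummerEmb_muToL (q : Nat.Primes) :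
    IsKummerEmb p (Rep.res (rl q) (muP p)) (Tow.unitsQpbar q) (muToL p S q) where
  injective := fun a b hab => muToL_injective' p S q a b hab
  equivariant := fun g m => muToL_equivariant' p S q g m
  range_eq := fun b => muToL_range' p S q b


/-! ## 2. LKI: local Kummer injectivity -/

/-- Hilbert 90: `H¹_lc(G_q, ℚ̄_qˣ) = 0`. -/
theorem h1Vanish_unitsQpbar (q : Nat.Primes) : H1Vanish (localLevels q) (Tow.unitsQpbar q) := by
  intro f hf hlc
  obtain ⟨W, hW, hWf⟩ := hlc
  obtain ⟨a₀, ha₀⟩ := hilbert90_open q ⊤ ⟨W, hW, le_top⟩ f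
    (fun s _ t _ => (mem_cocycles₁_iff f).1 hf s t) ⟨W, hW, hWf⟩
  refine ⟨a₀, ?_⟩
  funext s
  rw [d₀₁_hom_apply]
  exact ha₀ s (Subgroup.mem_top s)

/-- **LKI.** -/
theorem locKummerInj : LocKummerInjSpec p S := by
  intro q _ x _ hx
  exact H53.mem_B2_of_ι_mem_B2 (localLevels q) (isSmooth_unitsQpbar q)
    (isPDivisible_unitsQpbar p q) (isKummerEmb_muToL p S q) (h1Vanish_unitsQpbar q) hx


/-! ## 3. LKI-Ind -/

lemma indMuToL_eq (q : Nat.Primes) (U : Subgroup GQ) :
    (indMuToL p S q U : ((GQ ⧸ U) →₀ MuP p) →+ ((GQ ⧸ U) →₀ (Tow.unitsQpbar q))) =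
      Finsupp.mapRange.addMonoidHom (muToL p S q) := by
  apply AddMonoidHom.ext
  intro m
  change Finsupp.mapRange (K.locE q S) (map_zero _)
      (Finsupp.mapRange (K.muToE p S) (map_zero _) m) =
    Finsupp.mapRange (muToL p S q) (map_zero _) m
  ext c
  simp only [Finsupp.mapRange_apply]
  rfl

/-- `Ind_U μ_p → Ind_U ℚ̄_qˣ` is a Kummer embedding. -/
theorem isKummerEmb_indMuToL (q : Nat.Primes) (U : Subgroup GQ) [U.Normal] :
    IsKummerEmb p (Rep.res (rl q) (K.indG U (muP p))) (K.ind (rl q) U (Tow.unitsQpbar q))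
      (indMuToL p S q U) := by
  have h := isKummerEmb_ind_res (rl q) U (muP p) (Tow.unitsQpbar q) (muToL p S q)
    (isKummerEmb_muToL p S q)
  rw [← indMuToL_eq] at h
  exact h

/-- **LKI-Ind.** -/
theorem locKummerInjInd : LocKummerInjIndSpec p S := by
  intro q hq U hU hUn x _ hx
  haveI := hUn
  exact H53.mem_B2_of_ι_mem_B2 (localLevels q)
    (isSmooth_ind_res (rl q) U (localLevels q) (hrl S ⟨q, hq⟩ U hU) _ (isSmooth_unitsQpbar q))
    (H323.isPDivisible_finsupp_h323 p (isPDivisible_unitsQpbar p q))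
    (isKummerEmb_indMuToL p S q U) (semiLocalH90 S ⟨q, hq⟩ U hU hUn) hx


/-! ## 4. `GO4Spec ⇐ CokerESpec` and INV-COK -/

lemma cycloChar_eq_one_of_mu (s : GQ) (h : (mu p).ρ s = 1) : cycloChar p s = 1 := by
  have h1 : (mu p).ρ s (1 : ZMod p) = (1 : ZMod p) := by
    rw [h]; rfl
  have h2 : (mu p).ρ s (1 : ZMod p) = ((cycloChar p s : (ZMod p)ˣ) : ZMod p) • (1 : ZMod p) := rfl
  rw [h2, smul_eq_mul, mul_one] at h1
  exact Units.ext h1

lemma zmod_smul_eq_val_nsmul {M : Type*} [AddCommGroup M] [Module (ZMod p) M] (a : ZMod p)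
    (m : M) : a • m = a.val • m := by
  haveI : NeZero p := ⟨(Fact.out : p.Prime).ne_zero⟩
  conv_lhs => rw [← ZMod.natCast_zmod_val a]
  exact Nat.cast_smul_eq_nsmul (ZMod p) a.val m

lemma zmod_eq_zero_of_dvd_val (a : ZMod p) (h : (p : ℤ) ∣ (a.val : ℤ)) : a = 0 := by
  haveI : NeZero p := ⟨(Fact.out : p.Prime).ne_zero⟩
  have h1 : p ∣ a.val := Int.natCast_dvd_natCast.1 h
  have h2 : a.val = 0 := Nat.eq_zero_of_dvd_of_lt h1 (ZMod.val_lt a)
  exact (ZMod.val_eq_zero a).1 h2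

/-- The frozen arithmetic core `CokerESpec` (helper3, `Inv/SpecK.lean`) implies `GO4Spec`. -/
theorem go4_of_cokerE (h : CokerESpec p S) : GO4Spec p S := by
  intro hp2 hpS U hU hUn hUμ X X' hX hX'
  haveI := hUn
  have hcyc : ∀ s ∈ U, cycloChar p s = 1 := fun s hs => cycloChar_eq_one_of_mu p s (hUμ s hs)
  have hsm : ∀ v : ↥S, (localLevels v.1).IsSmooth (K.ind (rl v.1) U (Tow.unitsQpbar v.1)) :=
    fun v => isSmooth_ind_res (rl v.1) U (localLevels v.1) (hrl S v U hU) _
      (isSmooth_unitsQpbar v.1)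
  have hdiv : ∀ v : ↥S, IsPDivisible p (K.ind (rl v.1) U (Tow.unitsQpbar v.1)) :=
    fun v => H323.isPDivisible_finsupp_h323 p (isPDivisible_unitsQpbar p v.1)
  have hex : ∀ v : ↥S, ∃ m : Gl v.1 × Gl v.1 → K.indG U (muP p),
      m ∈ (localLevels v.1).Z2 (Rep.res (rl v.1) (K.indG U (muP p))) ∧
      (indMuToL p S v.1 U ∘ m - X v : Gl v.1 × Gl v.1 → K.ind (rl v.1) U (Tow.unitsQpbar v.1)) ∈
        (localLevels v.1).B2 (K.ind (rl v.1) U (Tow.unitsQpbar v.1)) := fun v =>
    H53.exists_of_p_nsmul_mem_B2 (localLevels v.1) (H723.localNormalCofinal v.1)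
      (H723.localFiniteIndex v.1) (hsm v) (hdiv v) (isKummerEmb_indMuToL p S v.1 U)
      (hX v).1 (hX v).2
  have hex' : ∀ v : ↥S, ∃ m : Gl v.1 × Gl v.1 → K.indG U (muP p),
      m ∈ (localLevels v.1).Z2 (Rep.res (rl v.1) (K.indG U (muP p))) ∧
      (indMuToL p S v.1 U ∘ m - X' v : Gl v.1 × Gl v.1 → K.ind (rl v.1) U (Tow.unitsQpbar v.1)) ∈
        (localLevels v.1).B2 (K.ind (rl v.1) U (Tow.unitsQpbar v.1)) := fun v =>
    H53.exists_of_p_nsmul_mem_B2 (localLevels v.1) (H723.localNormalCofinal v.1)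
      (H723.localFiniteIndex v.1) (hsm v) (hdiv v) (isKummerEmb_indMuToL p S v.1 U)
      (hX' v).1 (hX' v).2
  choose x hx hxX using hex
  choose x' hx' hxX' using hex'
  obtain ⟨a, b, hab, e, he, hpe, hloc⟩ := h hp2 hpS U hU hUn hcyc x x' hx hx'
  refine ⟨(a.val : ℤ), (b.val : ℤ), ?_, e, he, hpe, fun v => ?_⟩
  · rintro ⟨ha, hb⟩
    rcases hab with hab | hab
    · exact hab (zmod_eq_zero_of_dvd_val p a ha)
    · exact hab (zmod_eq_zero_of_dvd_val p b hb)
  · have key : ((a.val : ℤ) • X v + (b.val : ℤ) • X' v -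
        (fun y : Gl v.1 × Gl v.1 => (K.indLocE v.1 S U).toAddMonoidHom (e (rl v.1 y.1, rl v.1 y.2)))) =
        - ((a.val : ℤ) • (indMuToL p S v.1 U ∘ x v - X v)) -
          (b.val : ℤ) • (indMuToL p S v.1 U ∘ x' v - X' v) -
          ((K.indLocE v.1 S U ∘ e ∘ Prod.map (rl v.1) (rl v.1) :
                Gl v.1 × Gl v.1 → K.ind (rl v.1) U (Tow.unitsQpbar v.1)) -
              indMuToL p S v.1 U ∘ (a • x v + b • x' v)) := by
      funext y
      simp only [Pi.sub_apply, Pi.add_apply, Pi.smul_apply, Pi.neg_apply, Function.comp_apply,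
        map_add, zmod_smul_eq_val_nsmul, map_nsmul, natCast_zsmul, smul_sub]
      have hE : (K.indLocE v.1 S U).toAddMonoidHom (e (rl v.1 y.1, rl v.1 y.2)) =
          (K.indLocE v.1 S U) (e (Prod.map (rl v.1) (rl v.1) y)) := rfl
      rw [hE]
      abel
    rw [key]
    refine Submodule.sub_mem _ (Submodule.sub_mem _ (Submodule.neg_mem _ ?_) ?_) (hloc v)
    · exact Submodule.smul_mem _ _ (hxX v)
    · exact Submodule.smul_mem _ _ (hxX' v)


/-- **INV-COK, frozen-interface form.**  `GlobCokerSpec` from the arithmetic core `CokerESpec`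
alone (KUM, Hilbert 90, semi-local Hilbert 90, Krasner: all discharged). -/
theorem globCoker_of_cokerE (hp2 : p ≠ 2) (hpS : pPrime p ∈ S) (h : CokerESpec p S) :
    GlobCokerSpec p S :=
  globCoker_of_GO4 p S hp2 hpS (go4_of_cokerE p S h)

end Fermat.Agent.S55.Inv.H99
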