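import Fermat.Agent.S55.Inv.Spec2
import Fermat.Agent.S55.KC.Spec

/-!
# S55 / `InvSpec` : the local leaves INV-DIM and INV-NE from the cardinalities of layer KC

`KC.H2IndCardSpec` (`|H²(G_q, Ind_W μ_p)| = p`) gives `LocDimSpec`;
`KC.H2MuCardSpec` (`|H²(G_q, μ_p)| = p`) gives `LocH2NeSpec`.
-/

set_option autoImplicit false

noncomputable section

namespace Fermat.Agent.S55.Inv

open Fermat.Agent.S55.PT groupCohomology ExtCitation

/-- In an `F_p`-vector space with exactly `p` elements any two vectors are linearly dependent. -/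
theorem dependent_of_card_eq {p : ℕ} [Fact p.Prime] {V : Type*} [AddCommGroup V]
    [Module (ZMod p) V] (hV : Nat.card V = p) (x y : V) :
    ∃ a b : ZMod p, (a ≠ 0 ∨ b ≠ 0) ∧ a • x + b • y = 0 := by
  by_cases hx : x = 0
  · exact ⟨1, 0, Or.inl one_ne_zero, by simp [hx]⟩
  · have hp : 0 < p := (Fact.out : p.Prime).pos
    have : Finite V := Nat.finite_of_card_ne_zero (by omega)
    have hinj : Function.Injective (fun a : ZMod p => a • x) := by
      intro a b hab
      have h0 : (a - b) • x = 0 := by
        rw [sub_smul]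
        exact sub_eq_zero.2 hab
      rcases smul_eq_zero.1 h0 with h | h
      · exact sub_eq_zero.1 h
      · exact absurd h hx
    have hcard : Nat.card (ZMod p) = Nat.card V := by
      rw [hV, Nat.card_zmod]
    have hbij : Function.Bijective (fun a : ZMod p => a • x) :=
      (Nat.bijective_iff_injective_and_card _).2 ⟨hinj, hcard⟩
    obtain ⟨c, hc⟩ := hbij.2 y
    refine ⟨-c, 1, Or.inr one_ne_zero, ?_⟩
    have hc' : c • x = y := hc
    rw [neg_smul, one_smul, hc']
    exact neg_add_cancel y

/-- A module with exactly `p ≥ 2` elements has a non-zero element. -/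
theorem exists_ne_zero_of_card_eq {p : ℕ} [Fact p.Prime] {V : Type*} [AddCommGroup V]
    (hV : Nat.card V = p) : ∃ x : V, x ≠ 0 := by
  have hp : 1 < p := (Fact.out : p.Prime).one_lt
  have : Finite V := Nat.finite_of_card_ne_zero (by omega)
  have : Nontrivial V := by
    rw [← Finite.one_lt_card_iff_nontrivial, hV]
    exact hp
  exact exists_ne 0

variable (p : ℕ) [Fact p.Prime] (S : Finset Nat.Primes)

/-- **INV-DIM** from `KC.H2IndCardSpec`. -/
theorem locDim_of_card (h : KC.H2IndCardSpec) : LocDimSpec p S := by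
  intro v W hW _ hμ x y
  exact dependent_of_card_eq (h p v.1 W ⟨W, hW, le_rfl⟩ hμ) x y

/-- **INV-NE** from `KC.H2MuCardSpec`. -/
theorem locH2Ne_of_card (h : KC.H2MuCardSpec) : LocH2NeSpec p S := by
  intro v
  exact exists_ne_zero_of_card_eq (h p v.1)

end Fermat.Agent.S55.Inv

end
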