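import Fermat.Agent.S55.Inv.Spec2
import Fermat.Agent.S55.Bridge.DualTwist

/-!
# S55 / `InvSpec`, leaf INV-MU (helper635): `ℚ(μ_p)` is a normal `S`-level (`p ∈ S`)

`muLevel : pPrime p ∈ S → MuLevelSpec p S`, with `U = ker (cycloChar p)`.
-/

set_option autoImplicit false

namespace Fermat.Agent.S55.Inv.H635

open Fermat.Agent.S55.PT Fermat.Agent.S55.Bridge groupCohomology ExtCitation

/-- `ker (cycloChar p)` is an `S`-level when `p ∈ S`. -/
theorem ker_cycloChar_mem_levels (p : ℕ) [Fact p.Prime] (S : Finset Nat.Primes)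
    (hpS : pPrime p ∈ S) : MonoidHom.ker (cycloChar p) ∈ (globalLevels S).levels := by
  obtain ⟨L, hL, hfix, -⟩ := exists_level_of_subgroup S
    (MonoidHom.ker (cycloChar p)) (cycloLevel p) (cycloLevel_finiteDimensional p)
    (fun s hs => MonoidHom.mem_ker.2 (cycloChar_eq_one_of_mem_fixingSubgroup p s hs))
    (fun q hq A hA g hg => by
      have hqp : (q : ℕ) ≠ p := by
        intro h
        apply hq
        have : q = pPrime p := Subtype.ext h
        rw [this]
        exact hpS
      exact MonoidHom.mem_ker.2 (cycloChar_eq_one_of_mem_inertia p q.2 hqp A hA g hg))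
  exact ⟨L, hL, hfix.symm⟩

/-- **INV-MU.** -/
theorem muLevel (p : ℕ) [Fact p.Prime] (S : Finset Nat.Primes) (hpS : pPrime p ∈ S) :
    MuLevelSpec p S := by
  refine ⟨MonoidHom.ker (cycloChar p), ker_cycloChar_mem_levels p S hpS,
    MonoidHom.normal_ker _, fun s hs => ?_⟩
  have h1 : cycloChar p s = 1 := MonoidHom.mem_ker.1 hs
  apply LinearMap.ext
  intro c
  show ((Representation.trivial (ZMod p) GQ (ZMod p)).twist (cycloChar p)) s c = c
  simp [Representation.twist_apply_apply, h1]

end Fermat.Agent.S55.Inv.H635
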