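import Fermat.Agent.S55.Inv.Spec2
import Fermat.Agent.S55.Inv.WrH413.Global

/-!
# S55 / INV-WR (subtask 489, helper413): weak reciprocity over `ℚ` from the reciprocity law

`weakRecip_of : ReciprocitySpec I p → WeakRecipSpec p S`  (any local invariant system `I`).

A class `y ∈ H²_S(μ_p)` gives the Brauer class `x = [ζ ^ c] ∈ Br(ℚ)[p]` (`gClass`).
* At a prime `q ∉ S`, `x_q = 0` (unramified cocycle with unit values: `H181.locBr_eq_zero_of_good`).
* At `v' ∈ S`, `res_{v'} y = 0` implies `x_{v'} = 0`.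
* The reciprocity law for `U = ⊤` then gives `inv_v (x_v) = 0`, hence `x_v = 0` (`inv_injective`),
  hence `res_v y = 0` by local Kummer injectivity (`exists_cob_of_locBr_eq_zero`: Hilbert 90 and
  `p`-th roots in `ℚ̄_v`).
-/

set_option autoImplicit false
set_option linter.style.haveILetI false
set_option linter.unusedSectionVars false

namespace Fermat.Agent.S55.Inv.H413

open Fermat.Agent.S55.PT Fermat.Agent.S55.G.Rec groupCohomology ExtCitation

local notation "Qb" => AlgebraicClosure ℚ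
local notation "T" => (⊤ : Subgroup GQ)

variable (p : ℕ) [Fact p.Prime] (S : Finset Nat.Primes)

/-- The Brauer class of a cocycle of `H²_S(μ_p)` is trivial at every prime outside `S`. -/
theorem locBr_eq_zero_of_not_mem (I : LocalInvSystem) (c : ↥((globalLevels S).Z2 (mu p)))
    (q : ℕ) [Fact q.Prime] (hq : (⟨q, Fact.out⟩ : Nat.Primes) ∉ S) :
    locBr q 1 T (gClass p S c) = 0 := by
  obtain ⟨U, ⟨F, hF, rfl⟩, h⟩ := c.2.2
  obtain ⟨L, hL, hgal, hle⟩ := Bridge.exists_galois_level_ge S F hF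
  haveI : Normal ℚ L := hgal.to_normal
  refine H181.locBr_eq_zero_of_good I isOpenQ_top
    ⟨gCoch p (c : GQ × GQ → ↥(mu p)), gCoch_mem p S c⟩ L ?_ q ?_ ?_ 1
  · intro g g' s s' hs hs'
    show gCoch p (c : GQ × GQ → ↥(mu p)) (g * s, g' * s') = gCoch p (c : GQ × GQ → ↥(mu p)) (g, g')
    rw [gCoch_apply, gCoch_apply]
    exact congrArg (kapT p) (h (g : GQ) (g' : GQ) (s : GQ) (s' : GQ)
      (IntermediateField.fixingSubgroup_antitone hle hs)
      (IntermediateField.fixingSubgroup_antitone hle hs'))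
  · intro g₁ h₁ g'
    exact norm_lamq p q _ g'
  · intro τ hτ
    exact localGaloisToGlobal_mem_fixingSubgroup_of_inertial q hL hq τ hτ

/-- **INV-4 (weak reciprocity over `ℚ`)** from the reciprocity law of block REC. -/
theorem weakRecip_of (I : LocalInvSystem) (hRec : ReciprocitySpec I p) : WeakRecipSpec p S := by
  intro y v hv
  obtain ⟨c, rfl⟩ := (globalLevels S).H2π_surjective (mu p) y
  haveI hvF : Fact ((v.1 : ℕ)).Prime := ⟨v.1.2⟩
  -- vanishing away from `v`
  have hother : ∀ q : Nat.Primes, q ≠ v.1 → I.invAt q 1 T (gClass p S c) = 0 := by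
    intro q hq
    apply LocalInvSystem.invAt_eq_zero
    haveI : Fact ((q : ℕ)).Prime := ⟨q.2⟩
    show locBr (q : ℕ) 1 T (gClass p S c) = 0
    by_cases hqS : q ∈ S
    · have h1 := hv ⟨q, hqS⟩ (fun h => hq (congrArg Subtype.val h))
      rw [resH2_mk, LevelSys.H2π_eq_zero_iff] at h1
      obtain ⟨x, hx, hdx⟩ := h1
      refine locBr_eq_zero_of_cob p S (q : ℕ) c x ?_ ?_
      · exact (isLC₁_pullbackLevels_iff (rl q) x).1 hx
      · intro g h
        have := congrFun hdx (g, h)
        rw [d₁₂_hom_apply] at this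
        exact this
    · exact locBr_eq_zero_of_not_mem p S I c (q : ℕ) hqS
  have key := (hRec T isOpenQ_top (gClass p S c) ⟨1, gClass_torsion p S c⟩ (fun _ => {1})
    (fun q => isDoubleCosetReps_top _)).2
  simp only [Finset.sum_singleton] at key
  rw [finsum_eq_single _ v.1 hother] at key
  have hloc : locBr (v.1 : ℕ) 1 T (gClass p S c) = 0 := by
    apply I.inv_injective (v.1 : ℕ) _ (H181.isOpenL_locSub (v.1 : ℕ) 1 isOpenQ_top)
    rw [map_zero]
    exact key
  obtain ⟨x, hx, hdx⟩ := exists_cob_of_locBr_eq_zero p S (v.1 : ℕ) c hloc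
  rw [resH2_mk, LevelSys.H2π_eq_zero_iff]
  refine ⟨x, (isLC₁_pullbackLevels_iff (rl v.1) x).2 hx, ?_⟩
  funext ⟨g, h⟩
  have e := d₁₂_hom_apply (muLoc p v.1) (x : Gl v.1 → ↥(muLoc p v.1)) (g, h)
  exact e.trans (hdx g h)

end Fermat.Agent.S55.Inv.H413
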