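import Fermat.Agent.S55.PT.Final4
import Fermat.Agent.S55.G.Rec.ClosedH904
import Fermat.Agent.S55.K.AR.ClosedH4
import Fermat.Agent.S55.Inv.GO4.ShapH593
import Fermat.Agent.S55.Inv.GO4.AsmE
import Fermat.Agent.S55.Inv.GO4.H978.LocDesc

/-!
# S55 / `InvSpec` (A5–A7 of route C′): CLOSED FORM modulo layer G
(sub-architect helper3)

Pure assembly of theorems on main; no new mathematics.

* `invSpec_closed`      : `PT.InvSpec p S` ⇐ `Tow.GlobalSpecFin S p`  (`p` odd, `p ∈ S`);
* `globCoker_closed`, `cokerE_closed`, `go4_closed` : the same for INV-COK / GO4;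
* `cokerE_of_locDesc`   : `Inv.CokerESpec p S`   ⇐ `Tow.GlobalSpecFin S p` + `GO4.LocDescLeaf p S`;
* `globCoker_of_locDesc`: `Inv.GlobCokerSpec p S` ⇐ the same;
* `invSpec_of_locDesc`  : `PT.InvSpec p S`        ⇐ the same
  (A4 `KL.A4`, DIM/NE `KC.All`, MU helper635, WR helper413 + REC `G.Rec.H904`, COK: GO4 = SHAP helper593 +
   ASM helper3 + `K.AR.H4.cokerTower` helper4 + `K.AR` AR-DEG helper181).
-/

set_option autoImplicit false

noncomputable section

namespace Fermat.Agent.S55.Inv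

open Fermat.Agent.S55 Fermat.Agent.S55.PT ExtCitation

variable (p : ℕ) [Fact p.Prime] (S : Finset Nat.Primes)

/-- GO4 (`μ_p`-valued cochain form) from layer G and the local descent leaf. -/
theorem cokerE_of_locDesc (hp2 : p ≠ 2) (hpS : pPrime p ∈ S) (hG : Tow.GlobalSpecFin S p)
    (hLD : GO4.LocDescLeaf p S) : CokerESpec p S :=
  GO4.asm p S (GO4.H593.shapLeaf p S (K.AR.H4.cokerTower hG hp2 hpS))
    (hLD (Fact.out : p.Prime) (K.AR.H181.decLeaf S p ⟨(Fact.out : p.Prime), hp2, hpS⟩))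

/-- INV-COK from layer G and the local descent leaf. -/
theorem globCoker_of_locDesc (hp2 : p ≠ 2) (hpS : pPrime p ∈ S) (hG : Tow.GlobalSpecFin S p)
    (hLD : GO4.LocDescLeaf p S) : GlobCokerSpec p S :=
  H99.globCoker_of_cokerE p S hp2 hpS (cokerE_of_locDesc p S hp2 hpS hG hLD)

/-- **`PT.InvSpec` (A5–A7) from layer G and the local descent leaf.** -/
theorem invSpec_of_locDesc (hp2 : p ≠ 2) (hpS : pPrime p ∈ S) (hG : Tow.GlobalSpecFin S p)
    (hLD : GO4.LocDescLeaf p S) : PT.InvSpec p S :=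
  G.Rec.H904.nonempty_localInvSystem.elim fun I =>
    PT.invSpec_of_rec hp2 S hpS I (G.Rec.H904.reciprocity I p hp2)
      (cokerE_of_locDesc p S hp2 hpS hG hLD)

/-- GO4 (`μ_p`-valued cochain form), closed modulo layer G. -/
theorem cokerE_closed (hp2 : p ≠ 2) (hpS : pPrime p ∈ S) (hG : Tow.GlobalSpecFin S p) :
    CokerESpec p S :=
  cokerE_of_locDesc p S hp2 hpS hG (GO4.H978.locDesc p S)

/-- GO4 (two-family cochain form of helper99), closed modulo layer G. -/
theorem go4_closed (hp2 : p ≠ 2) (hpS : pPrime p ∈ S) (hG : Tow.GlobalSpecFin S p) :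
    H99.GO4Spec p S :=
  GO4.go4_of p S (GO4.H593.shapLeaf p S (K.AR.H4.cokerTower hG hp2 hpS))
    (GO4.H978.locDesc p S (Fact.out : p.Prime)
      (K.AR.H181.decLeaf S p ⟨(Fact.out : p.Prime), hp2, hpS⟩))

/-- INV-COK, closed modulo layer G. -/
theorem globCoker_closed (hp2 : p ≠ 2) (hpS : pPrime p ∈ S) (hG : Tow.GlobalSpecFin S p) :
    GlobCokerSpec p S :=
  globCoker_of_locDesc p S hp2 hpS hG (GO4.H978.locDesc p S)

/-- **`PT.InvSpec` (A5–A7 of route C′), closed modulo layer G.** -/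
theorem invSpec_closed (hp2 : p ≠ 2) (hpS : pPrime p ∈ S) (hG : Tow.GlobalSpecFin S p) :
    PT.InvSpec p S :=
  invSpec_of_locDesc p S hp2 hpS hG (GO4.H978.locDesc p S)

end Fermat.Agent.S55.Inv

end
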