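/-
S55 (Poitou–Tate), route C′, input `InvSpec`, sub-interface `Inv/SpecK.lean` (helper3):
the two local Kummer injectivity leaves, UNCONDITIONALLY (helper775).

* `H775.lki    : LocKummerInjSpec p S`     — `H²_lc(G_q, μ_p) → H²_lc(G_q, ℚ̄_qˣ)` is injective;
* `H775.lkiInd : LocKummerInjIndSpec p S`  — the same for `Ind_U μ_p → Ind_U ℚ̄_qˣ`.

Inputs (all on main): Hilbert 90 for open subgroups of `G_{ℚ_q}` and its semi-local form
(`Inv/H90H99`, helper99), the cochain Kummer chase `KC.H53.mem_B2_of_ι_mem_B2` (helper53).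
-/
import Fermat.Agent.S55.Inv.SpecK
import Fermat.Agent.S55.Inv.H90H99
import Fermat.Agent.S55.KC.KummerH2H53

set_option autoImplicit false
set_option linter.style.haveILetI false
set_option linter.unusedSectionVars false
noncomputable section
namespace Fermat.Agent.S55.Inv.H775

open groupCohomology ExtCitation Fermat.Agent.S55.PT Fermat.Agent.S55.KC Fermat.Agent.S55.Bridge
open Fermat.Agent.S55.K

variable (p : ℕ) [Fact p.Prime] (S : Finset Nat.Primes)

/-! ## 1. The Kummer embedding `μ_p → 𝔼 → ℚ̄_qˣ` (coefficients `Bridge.muP p`) -/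

/-- `μ_p → 𝔼` is `G_ℚ`-equivariant. -/
lemma muToE_equivariant775 (g : GQ) (m : muP p) :
    muToE p S ((muP p).ρ g m) = (sUnits S).ρ g (muToE p S m) := by
  apply H99.sUnits_ext
  rw [H99.coe_sUnits_ρ, H99.coe_muToE, H99.coe_muToE]
  exact muPRep_apply p g m

/-- `p`-torsion of `ℚ̄_qˣ` comes from `μ_p` (coefficients `Bridge.muP p`). -/
theorem isKummerEmb_muToL775 (q : Nat.Primes) :
    IsKummerEmb p (Rep.res (rl q) (muP p)) (Tow.unitsQpbar q) (muToL p S q) where
  injective := (H99.locE_injective S).comp (muToE_injective p S)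
  equivariant := by
    intro g m
    show locE q S (muToE p S ((muP p).ρ (rl q g) m)) = _
    rw [muToE_equivariant775, H99.locE_equivariant]
    rfl
  range_eq := by
    intro b
    rw [(H99.isKummerEmb_locMu p S q).range_eq b]
    constructor
    · rintro ⟨m, rfl⟩
      exact ⟨muPLinearEquiv p m, rfl⟩
    · rintro ⟨m, rfl⟩
      let m' : MuP p := m
      refine ⟨(muPLinearEquiv p).symm m', ?_⟩
      have h : muPLinearEquiv p ((muPLinearEquiv p).symm m') = m' :=
        LinearEquiv.apply_symm_apply _ _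
      show locE q S (muToE p S (muPLinearEquiv p ((muPLinearEquiv p).symm m'))) = _
      rw [h]
      rfl

/-- `H¹_lc(G_q, ℚ̄_qˣ) = 0` (Hilbert 90). -/
theorem h1Vanish_unitsQpbar775 (q : Nat.Primes) :
    H1Vanish (localLevels q) (Tow.unitsQpbar q) := by
  intro f hf hlc
  obtain ⟨W, hW⟩ := (localLevels q).nonempty
  obtain ⟨a₀, ha₀⟩ := H99.hilbert90_open q ⊤ ⟨W, hW, le_top⟩ f
    (fun s _ t _ => (mem_cocycles₁_iff f).1 hf s t) hlc
  refine ⟨a₀, ?_⟩
  funext s
  rw [d₀₁_hom_apply]
  exact ha₀ s (Subgroup.mem_top s)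

/-- **LKI.** -/
theorem lki : LocKummerInjSpec p S := by
  intro q _ x _ hx
  exact H53.mem_B2_of_ι_mem_B2 (localLevels q) (H99.isSmooth_unitsQpbar q)
    (H99.isPDivisible_unitsQpbar p q) (isKummerEmb_muToL775 p S q)
    (h1Vanish_unitsQpbar775 q) hx

/-! ## 2. The induced version -/

/-- `Ind_U` (model of `K/Defs.lean`, along `φ`) of a Kummer embedding is a Kummer embedding. -/
theorem isKummerEmb_ind775 {G H : Type} [Group G] [Group H] (φ : H →* G) (U : Subgroup G)
    (M : Rep.{0, 0, 0} (ZMod p) G) (B : Rep.{0, 0, 0} ℤ H) (ι : M →+ B)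
    (hK : IsKummerEmb p (Rep.res φ M) B ι) :
    IsKummerEmb p (Rep.res φ (indG U M)) (ind φ U B)
      (Finsupp.mapRange.addMonoidHom ι : ((G ⧸ U) →₀ M) →+ ((G ⧸ U) →₀ B)) where
  injective := Finsupp.mapRange_injective ι (map_zero ι) hK.injective
  equivariant := by
    intro g m
    change Finsupp.mapRange.addMonoidHom ι (indρ (MonoidHom.id G) U M (φ g) m) =
      indρ φ U B g (Finsupp.mapRange.addMonoidHom ι m)
    induction m using Finsupp.induction_linear with
    | zero => simp
    | add a b ha hb => rw [map_add, map_add, map_add, map_add, ha, hb]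
    | single x m =>
      rw [indρ_single, Finsupp.mapRange.addMonoidHom_apply, Finsupp.mapRange_single,
        Finsupp.mapRange.addMonoidHom_apply, Finsupp.mapRange_single, indρ_single]
      congr 1
      exact hK.equivariant g m
  range_eq := fun b => H99.mapRange_range_eq (X := G ⧸ U) ι hK.injective hK.range_eq b

lemma indMuToL_eq775 (q : Nat.Primes) (U : Subgroup GQ) :
    indMuToL p S q U = (Finsupp.mapRange.addMonoidHom (muToL p S q) :
      ((GQ ⧸ U) →₀ muP p) →+ ((GQ ⧸ U) →₀ Tow.unitsQpbar q)) := by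
  apply AddMonoidHom.ext
  intro m
  change Finsupp.mapRange (locE q S) (map_zero _)
      (Finsupp.mapRange (muToE p S) (map_zero _) m) =
    Finsupp.mapRange (muToL p S q) (map_zero _) m
  ext c
  simp only [Finsupp.mapRange_apply]
  rfl

/-- **LKI-Ind.** -/
theorem lkiInd : LocKummerInjIndSpec p S := by
  intro q hq U hU hUn x _ hx
  haveI := hUn
  have hK := isKummerEmb_ind775 p (rl q) U (muP p) (Tow.unitsQpbar q) (muToL p S q)
    (isKummerEmb_muToL775 p S q)
  rw [← indMuToL_eq775] at hK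
  exact H53.mem_B2_of_ι_mem_B2 (localLevels q)
    (H99.isSmooth_ind_res (rl q) U (localLevels q) (hrl S ⟨q, hq⟩ U hU) _
      (H99.isSmooth_unitsQpbar q))
    (H323.isPDivisible_finsupp_h323 p (H99.isPDivisible_unitsQpbar p q)) hK
    (H99.semiLocalH90 S ⟨q, hq⟩ U hU hUn) hx

end Fermat.Agent.S55.Inv.H775
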