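import Fermat.Agent.S55.Inv.Spec2
import Fermat.Agent.S55.PT.LevelsH724
import Fermat.Agent.S55.PT.LevelLeavesH424

/-!
# S55 / route C′ / `InvSpec` leaf INV-MU                                  (helper539)

`muLevelClosed : pPrime p ∈ S → Inv.MuLevelSpec p S` : some normal global level acts trivially on
`μ_p` (the level `ℚ(μ_p)`, from helper424's `cycloLevelSpec` and helper724's
`globalNormalCofinal`).  Unconditional; consumed by `PT.s55_of_frontier` (`PT/Final3.lean`).
-/

set_option autoImplicit false

noncomputable section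

namespace Fermat.Agent.S55.Inv.MuH539

open Fermat.Agent.S55.PT groupCohomology ExtCitation

variable (p : ℕ) [Fact p.Prime] (S : Finset Nat.Primes)

/-- **INV-MU.**  Some normal global level acts trivially on `μ_p` (for `p ∈ S`). -/
theorem muLevelClosed (hpS : pPrime p ∈ S) : MuLevelSpec p S := by
  obtain ⟨V, hV, hVχ⟩ := H424.cycloLevelSpec p S hpS
  obtain ⟨U, hU, hUV, hUn⟩ := H724.globalNormalCofinal S V hV
  refine ⟨U, hU, hUn, fun s hs => ?_⟩
  apply LinearMap.ext
  intro c
  rw [ofChar_ρ_apply, hVχ s (hUV hs)]
  simp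

end Fermat.Agent.S55.Inv.MuH539

end
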