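import Fermat.Agent.S55.Inv.Spec

/-!
# S55 / `InvSpec` : FROZEN SUB-INTERFACE, part 2 (sub-architect helper3)

`LocalInvRecipSpec` (INV-1 of `Inv/Spec.lean`) is reduced in `Inv/Top2.lean` (complete) to
invariant-free statements:

* `WeakRecipSpec p S` : a global class of `H²_S(μ_p)` (over `ℚ`) with at most one non-zero local
                        component (`v ∈ S`) has no non-zero local component;
* `LocH2NeSpec p S`   : `H²(G_v, μ_p) ≠ 0` for `v ∈ S`;
* `MuLevelSpec p S`   : some normal `S`-level acts trivially on `μ_p` (`ℚ(μ_p)`, `p ∈ S`);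
* `GlobCokerSpec`, `Surj2LocSpec`.

Final form:  `PT.InvSpec ⇐ Surj2LocSpec ∧ LocDimSpec ∧ GlobCokerSpec ∧ WeakRecipSpec ∧ LocH2NeSpec
∧ MuLevelSpec`  (`Inv/Top2.lean: invSpec_of'`).  No invariant map, no corestriction, no cup
product appears in any input.
-/

set_option autoImplicit false

noncomputable section

namespace Fermat.Agent.S55.Inv

open Fermat.Agent.S55.PT groupCohomology ExtCitation

variable (p : ℕ) [Fact p.Prime] (S : Finset Nat.Primes)

/-- **INV-4 (weak reciprocity over `ℚ`).**  If a global class `y ∈ H²_S(μ_p)` is locally trivial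
at all `v' ∈ S` different from `v`, then it is locally trivial at `v` as well. -/
def WeakRecipSpec : Prop :=
  ∀ (y : (globalLevels S).H2 (mu p)) (v : ↥S),
    (∀ v' : ↥S, v' ≠ v → resH2 (hrl S v') (mu p) y = 0) → resH2 (hrl S v) (mu p) y = 0

/-- **INV-5 (local non-vanishing).**  `H²(G_v, μ_p) ≠ 0` for `v ∈ S`  (`Br(ℚ_v)[p] ≠ 0`). -/
def LocH2NeSpec : Prop :=
  ∀ v : ↥S, ∃ x : (localLevels v.1).H2 (muLoc p v.1), x ≠ 0

/-- **INV-6 (`μ_p` lives at a level).**  Some normal global level acts trivially on `μ_p`. -/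
def MuLevelSpec : Prop :=
  ∃ U : Subgroup GQ, U ∈ (globalLevels S).levels ∧ U.Normal ∧ ∀ s ∈ U, (mu p).ρ s = 1

end Fermat.Agent.S55.Inv

end
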