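import Fermat.Agent.S55.Inv.Spec

/-!
# S55 / `InvSpec` : the top reduction (complete)

`invSpec_of : Surj2LocSpec → LocalInvRecipSpec → LocDimSpec → GlobCokerSpec → PT.InvSpec`.
-/

set_option autoImplicit false
set_option linter.style.haveILetI false

noncomputable section

namespace Fermat.Agent.S55.Inv

open Fermat.Agent.S55.PT groupCohomology ExtCitation

/-! ### Generalities -/

/-- A functional whose kernel is contained in the kernel of a non-zero functional `T`, has the
same kernel as `T`. -/
lemma ker_eq_of_ker_le {k V : Type*} [Field k] [AddCommGroup V] [Module k V]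
    (f T : V →ₗ[k] k) (hT : T ≠ 0) (h : LinearMap.ker f ≤ LinearMap.ker T) :
    LinearMap.ker T ≤ LinearMap.ker f := by
  -- `f ≠ 0`
  have hf : f ≠ 0 := by
    rintro rfl
    apply hT
    ext x
    have : x ∈ LinearMap.ker (0 : V →ₗ[k] k) := by simp
    simpa using h this
  obtain ⟨e, he⟩ : ∃ e, f e ≠ 0 := by
    by_contra hcon
    apply hf
    ext x
    by_contra hx
    exact hcon ⟨x, hx⟩
  -- `T = c • f`
  have key : ∀ z, T z = (T e / f e) * f z := by
    intro z
    have hz : z - (f z / f e) • e ∈ LinearMap.ker f := by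
      rw [LinearMap.mem_ker, map_sub, map_smul, smul_eq_mul, div_mul_cancel₀ _ he, sub_self]
    have := h hz
    rw [LinearMap.mem_ker, map_sub, map_smul, smul_eq_mul, sub_eq_zero] at this
    rw [this]
    field_simp
  have hTe : T e ≠ 0 := by
    intro h0
    apply hT
    ext z
    rw [key z, h0]
    simp
  intro x hx
  rw [LinearMap.mem_ker] at hx ⊢
  have := key x
  rw [hx] at this
  have h2 : T e / f e ≠ 0 := div_ne_zero hTe he
  rcases mul_eq_zero.1 this.symm with h3 | h3
  · exact absurd h3 h2
  · exact h3

/-- A non-zero functional to the ground field is surjective. -/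
lemma surjective_of_ne_zero {k V : Type*} [Field k] [AddCommGroup V] [Module k V]
    (f : V →ₗ[k] k) (hf : f ≠ 0) : Function.Surjective f := by
  obtain ⟨e, he⟩ : ∃ e, f e ≠ 0 := by
    by_contra hcon
    apply hf
    ext x
    by_contra hx
    exact hcon ⟨x, hx⟩
  intro c
  refine ⟨(c / f e) • e, ?_⟩
  rw [map_smul, smul_eq_mul, div_mul_cancel₀ _ he]

/-! ### Finiteness of the induced modules -/

lemma finite_quotient_of_finiteDimensional (F : IntermediateField ℚ (AlgebraicClosure ℚ))
    [FiniteDimensional ℚ F] : Finite (GQ ⧸ F.fixingSubgroup) := by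
  haveI : Algebra.IsAlgebraic ℚ (AlgebraicClosure ℚ) := AlgebraicClosure.isAlgebraic ℚ
  haveI : IsAlgClosure ℚ (AlgebraicClosure ℚ) := ⟨inferInstance, inferInstance⟩
  haveI : Normal ℚ (AlgebraicClosure ℚ) := IsAlgClosure.normal ℚ (AlgebraicClosure ℚ)
  haveI : IsGalois ℚ (AlgebraicClosure ℚ) := isGalois_iff.mpr ⟨inferInstance, inferInstance⟩
  have h := IntermediateField.finrank_eq_fixingSubgroup_index (F := ℚ)
    (E' := AlgebraicClosure ℚ) F
  have hpos : 0 < Module.finrank ℚ F := Module.finrank_pos
  have hidx : F.fixingSubgroup.index ≠ 0 := by rw [← h]; exact hpos.ne'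
  haveI : F.fixingSubgroup.FiniteIndex := ⟨hidx⟩
  exact Subgroup.finite_quotient_of_finiteIndex

lemma finite_quotient_global (S : Finset Nat.Primes) {U : Subgroup GQ}
    (hU : U ∈ (globalLevels S).levels) : Finite (GQ ⧸ U) := by
  obtain ⟨F, hF, rfl⟩ := hU
  haveI := hF.1
  exact finite_quotient_of_finiteDimensional F

lemma finite_quotient_local (q : Nat.Primes) {W : Subgroup (Gl q)}
    (hW : W ∈ (localLevels q).levels) : Finite (Gl q ⧸ W) := by
  obtain ⟨F, hF, rfl⟩ := hW
  have := hF
  have hfin := finite_quotient_of_finiteDimensional F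
  have h1 : (F.fixingSubgroup).FiniteIndex := Subgroup.finiteIndex_of_finite_quotient
  have h2 : (F.fixingSubgroup.comap (rl q)).index ≠ 0 := by
    rw [Subgroup.index_comap]
    intro h0
    exact h1.index_ne_zero (Subgroup.index_eq_zero_of_relIndex_eq_zero h0)
  haveI : (F.fixingSubgroup.comap (rl q)).FiniteIndex := ⟨h2⟩
  exact Subgroup.finite_quotient_of_finiteIndex

/-! ### Smoothness of the induced modules -/

section Smooth

variable {k : Type} [Field k] {G : Type} [Group G]

/-- A normal subgroup `U` acting trivially on `M` acts trivially on `Ind_U M`. -/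
lemma indRep_ρ_eq_one_of_mem (U : Subgroup G) [U.Normal] (M : Rep.{0, 0, 0} k G)
    (hM : ∀ s ∈ U, M.ρ s = 1) (s : G) (hs : s ∈ U) : (indRep U M).ρ s = 1 := by
  have : indAct U M s = LinearMap.id := by
    apply Finsupp.lhom_ext
    intro x m
    rw [indAct_single, hM s hs]
    have hx : s • x = x := by
      induction x using QuotientGroup.induction_on with
      | H g =>
        show ((s * g : G) : G ⧸ U) = (g : G ⧸ U)
        rw [QuotientGroup.eq]
        have h1 : (s * g)⁻¹ * g = g⁻¹ * s⁻¹ * g⁻¹⁻¹ := by group
        rw [h1]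
        exact Subgroup.Normal.conj_mem inferInstance _ (U.inv_mem hs) _
    rw [hx]
    rfl
  exact this

end Smooth

/-! ### The reduction -/

section Main

variable (p : ℕ) [Fact p.Prime] (S : Finset Nat.Primes)

instance finiteDimensional_mu : FiniteDimensional (ZMod p) (mu p) :=
  inferInstanceAs (FiniteDimensional (ZMod p) (ZMod p))

instance finiteDimensional_muLoc (q : Nat.Primes) : FiniteDimensional (ZMod p) (muLoc p q) :=
  inferInstanceAs (FiniteDimensional (ZMod p) (ZMod p))

lemma finiteDimensional_ind {G : Type} [Group G] (U : Subgroup G) [Finite (G ⧸ U)]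
    (M : Rep.{0, 0, 0} (ZMod p) G) [FiniteDimensional (ZMod p) M] :
    FiniteDimensional (ZMod p) (indRep U M) :=
  inferInstanceAs (FiniteDimensional (ZMod p) ((G ⧸ U) →₀ M))

/-- local surjectivity of `inv_v ∘ aug_*` on `H²(G_v, Ind_W μ)` -/
lemma surjective_inv_aug_loc (h4 : Surj2LocSpec p S) (inv : InvFamily p S)
    (hne : ∀ v : ↥S, inv v ≠ 0) (v : ↥S) (W : Subgroup (Gl v.1))
    (hW : W ∈ (localLevels v.1).levels) (hWn : W.Normal)
    (hWμ : ∀ s ∈ W, (muLoc p v.1).ρ s = 1) :
    Function.Surjective ((inv v) ∘ₗ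
      pushH2 (A := indRep W (muLoc p v.1)) (B := muLoc p v.1) (indAug W (muLoc p v.1))
        (indAug_equivariant W (muLoc p v.1)) (localLevels v.1)) := by
  haveI := finite_quotient_local v.1 hW
  haveI := hWn
  have hfd : FiniteDimensional (ZMod p) (indRep W (muLoc p v.1)) :=
    finiteDimensional_ind p W (muLoc p v.1)
  have hsm1 : (localLevels v.1).IsUSmooth (indRep W (muLoc p v.1)) :=
    ⟨W, hW, fun s hs a => by
      rw [indRep_ρ_eq_one_of_mem W (muLoc p v.1) hWμ s hs]; rfl⟩
  have hsm2 : (localLevels v.1).IsUSmooth (muLoc p v.1) :=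
    ⟨W, hW, fun s hs a => by rw [hWμ s hs]; rfl⟩
  have hs := h4 v.1 v.2 (indRep W (muLoc p v.1)) (muLoc p v.1) (indAug W (muLoc p v.1))
    (indAug_equivariant W (muLoc p v.1)) hfd hsm1 hsm2 (indAug_surjective W (muLoc p v.1))
  rw [LinearMap.coe_comp]
  exact (surjective_of_ne_zero (inv v) (hne v)).comp hs

/-- **Top reduction of `InvSpec`.** -/
theorem invSpec_of (h4 : Surj2LocSpec p S) (h1 : LocalInvRecipSpec p S)
    (h2 : LocDimSpec p S) (h3 : GlobCokerSpec p S) : InvSpec p S := by
  obtain ⟨inv, hne, hrec⟩ := h1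
  refine ⟨inv, hrec, ?_, ?_⟩
  · -- A6
    intro v W hW hWn hWμ
    have hsurj := surjective_inv_aug_loc p S h4 inv hne v W hW hWn hWμ
    refine ⟨?_, hsurj⟩
    rw [← LinearMap.ker_eq_bot, LinearMap.ker_eq_bot']
    intro x hx
    obtain ⟨y, hy⟩ := hsurj 1
    obtain ⟨a, b, hab, h⟩ := h2 v W hW hWn hWμ x y
    have h' := congrArg ((inv v) ∘ₗ
      pushH2 (A := indRep W (muLoc p v.1)) (B := muLoc p v.1) (indAug W (muLoc p v.1))
        (indAug_equivariant W (muLoc p v.1)) (localLevels v.1)) h
    rw [map_add, map_smul, map_smul, hx, hy, map_zero, smul_zero, zero_add, smul_eq_mul,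
      mul_one] at h'
    subst h'
    rw [zero_smul, add_zero] at h
    have ha : a ≠ 0 := by
      rcases hab with ha | hb
      · exact ha
      · exact absurd rfl hb
    exact (smul_eq_zero.1 h).resolve_left ha
  · -- A7
    intro U hU hUn hUμ x hx
    obtain ⟨f, hf⟩ := h3 U hU hUn hUμ
    -- range ≤ ker topIndFun
    have hrange : LinearMap.range (loc2 (hrl S) (indRep U (mu p))) ≤
        LinearMap.ker (topIndFun inv U) := by
      rintro _ ⟨y, rfl⟩
      rw [LinearMap.mem_ker]
      have := hrec (pushH2 (A := indRep U (mu p)) (B := mu p) (indAug U (mu p))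
        (indAug_equivariant U (mu p)) (globalLevels S) y)
      rw [← this]
      simp only [topIndFun, LinearMap.coe_sum, Finset.sum_apply, LinearMap.coe_comp,
        Function.comp_apply, LinearMap.proj_apply, loc2_apply]
      refine Finset.sum_congr rfl fun v _ => ?_
      rw [resH2_pushH2]
    by_cases hT : topIndFun inv U = 0
    · -- then `S` is empty or ... : show `ker f = ⊤`-type contradiction is impossible; use surjectivity
      by_cases hS : Nonempty ↥S
      · exfalso
        obtain ⟨v⟩ := hS
        -- a class at `v` with non-zero invariant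
        haveI := finite_quotient_global S hU
        haveI := hUn
        have hfd : FiniteDimensional (ZMod p) (Rep.res (rl v.1) (indRep U (mu p))) :=
          finiteDimensional_ind p U (mu p)
        obtain ⟨F, hF, rfl⟩ := hU
        have hlev : (F.fixingSubgroup.comap (rl v.1)) ∈ (localLevels v.1).levels :=
          ⟨F, hF.1, rfl⟩
        have hsm1 : (localLevels v.1).IsUSmooth (Rep.res (rl v.1) (indRep F.fixingSubgroup (mu p))) :=
          ⟨_, hlev, fun s hs a => by
            show (indRep F.fixingSubgroup (mu p)).ρ (rl v.1 s) a = a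
            rw [indRep_ρ_eq_one_of_mem F.fixingSubgroup (mu p) hUμ (rl v.1 s) hs]; rfl⟩
        have hsm2 : (localLevels v.1).IsUSmooth (muLoc p v.1) :=
          ⟨_, hlev, fun s hs a => by
            show (mu p).ρ (rl v.1 s) a = a
            rw [hUμ (rl v.1 s) hs]; rfl⟩
        have hs := h4 v.1 v.2 (Rep.res (rl v.1) (indRep F.fixingSubgroup (mu p))) (muLoc p v.1)
          (indAug F.fixingSubgroup (mu p))
          ((indAug_equivariant F.fixingSubgroup (mu p)).res (rl v.1)) hfd hsm1 hsm2
          (indAug_surjective F.fixingSubgroup (mu p))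
        obtain ⟨z, hz⟩ := surjective_of_ne_zero (inv v) (hne v) 1
        obtain ⟨w, hw⟩ := hs z
        have := LinearMap.congr_fun hT (Pi.single v w)
        simp only [topIndFun, LinearMap.coe_sum, Finset.sum_apply, LinearMap.coe_comp,
          Function.comp_apply, LinearMap.proj_apply, LinearMap.zero_apply] at this
        rw [Finset.sum_eq_single v] at this
        · rw [Pi.single_eq_same, hw, hz] at this
          exact one_ne_zero this
        · intro v' _ hv'
          rw [Pi.single_eq_of_ne hv', map_zero, map_zero]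
        · intro hv
          exact absurd (Finset.mem_univ v) hv
      · -- `S` empty: `x = 0`
        have hx0 : x = 0 := by
          funext v
          exact absurd ⟨v⟩ hS
        rw [hx0]
        exact Submodule.zero_mem _
    · have hle : LinearMap.ker f ≤ LinearMap.ker (topIndFun inv U) := hf.trans hrange
      exact hf (ker_eq_of_ker_le f (topIndFun inv U) hT hle (LinearMap.mem_ker.2 hx))

end Main

end Fermat.Agent.S55.Inv

end
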