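import Fermat.Agent.S55.Inv.Top
import Fermat.Agent.S55.Inv.Spec2

/-!
# S55 / `InvSpec` : second reduction (complete)

`localInvRecip_of : Surj2LocSpec → GlobCokerSpec → WeakRecipSpec → LocH2NeSpec → MuLevelSpec →
LocalInvRecipSpec`  and the final form
`invSpec_of' : Surj2LocSpec → LocDimSpec → GlobCokerSpec → WeakRecipSpec → LocH2NeSpec →
MuLevelSpec → PT.InvSpec`.

The invariant maps are DEFINED as the restrictions to the factors of an equation `f₀` of the
hyperplane `im(H²_S(μ) → ∏_v H²(G_v, μ))`.
-/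

set_option autoImplicit false
set_option linter.style.haveILetI false

noncomputable section

namespace Fermat.Agent.S55.Inv

open Fermat.Agent.S55.PT groupCohomology ExtCitation

/-! ### Linear algebra -/

/-- Image of the kernel of a functional under a surjection contains the kernel of a functional. -/
lemma exists_functional_ker_le_map {k V W : Type*} [Field k] [AddCommGroup V] [Module k V]
    [AddCommGroup W] [Module k W] (π : V →ₗ[k] W) (hπ : Function.Surjective π)
    (f : V →ₗ[k] k) :
    ∃ f₀ : W →ₗ[k] k, LinearMap.ker f₀ ≤ (LinearMap.ker f).map π := by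
  by_cases h : LinearMap.ker π ≤ LinearMap.ker f
  · refine ⟨((LinearMap.ker π).liftQ f h) ∘ₗ
      (π.quotKerEquivOfSurjective hπ).symm.toLinearMap, ?_⟩
    intro w hw
    obtain ⟨v, rfl⟩ := hπ w
    refine ⟨v, ?_, rfl⟩
    rw [LinearMap.mem_ker] at hw
    rw [SetLike.mem_coe, LinearMap.mem_ker]
    have h1 : (π.quotKerEquivOfSurjective hπ).symm (π v) = Submodule.Quotient.mk v := by
      apply (π.quotKerEquivOfSurjective hπ).injective
      rw [LinearEquiv.apply_symm_apply]
      rfl
    rw [LinearMap.comp_apply, LinearEquiv.coe_coe, h1] at hw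
    exact hw
  · obtain ⟨e, he, hfe⟩ := Set.not_subset.1 h
    have hfe' : f e ≠ 0 := fun h0 => hfe (LinearMap.mem_ker.2 h0)
    refine ⟨0, fun w _ => ?_⟩
    obtain ⟨v, rfl⟩ := hπ w
    refine ⟨v - (f v / f e) • e, ?_, ?_⟩
    · rw [SetLike.mem_coe, LinearMap.mem_ker, map_sub, map_smul, smul_eq_mul,
        div_mul_cancel₀ _ hfe', sub_self]
    · rw [map_sub, map_smul, LinearMap.mem_ker.1 he, smul_zero, sub_zero]

/-- If the kernel of a non-zero functional is contained in a proper subspace `I`, then
`I` is contained in the kernel. -/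
lemma le_ker_of_ker_le_of_ne_top {k V : Type*} [Field k] [AddCommGroup V] [Module k V]
    (f : V →ₗ[k] k) (I : Submodule k V) (h : LinearMap.ker f ≤ I) (hI : I ≠ ⊤) :
    I ≤ LinearMap.ker f := by
  intro i hi
  by_contra hfi
  rw [LinearMap.mem_ker] at hfi
  apply hI
  rw [eq_top_iff]
  intro b _
  have hb : b - (f b / f i) • i ∈ LinearMap.ker f := by
    rw [LinearMap.mem_ker, map_sub, map_smul, smul_eq_mul, div_mul_cancel₀ _ hfi, sub_self]
  have := I.add_mem (h hb) (I.smul_mem (f b / f i) hi)
  simpa using this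

/-! ### The reduction -/

section Main

variable (p : ℕ) [Fact p.Prime] (S : Finset Nat.Primes)

/-- the product of the local `H²(G_v, μ_p)` -/
abbrev LocProd : Type := (v : ↥S) → (localLevels v.1).H2 (muLoc p v.1)

/-- Step A: the global classes over `ℚ` fill a hyperplane of `∏_v H²(G_v, μ)`. -/
lemma exists_functional_mu (h4 : Surj2LocSpec p S) (hcok : GlobCokerSpec p S)
    (hmu : MuLevelSpec p S) :
    ∃ f₀ : LocProd p S →ₗ[ZMod p] ZMod p,
      LinearMap.ker f₀ ≤ LinearMap.range (loc2 (hrl S) (mu p)) := by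
  obtain ⟨U, hU, hUn, hUμ⟩ := hmu
  obtain ⟨f, hf⟩ := hcok U hU hUn hUμ
  haveI := finite_quotient_global S hU
  haveI := hUn
  -- the push-forward along the augmentation is surjective on the local products
  have hπ : Function.Surjective (pushLoc2
      (Lv := fun v : ↥S => localLevels v.1) (r := fun v : ↥S => rl v.1)
      (A := indRep U (mu p)) (B := mu p) (indAug U (mu p)) (indAug_equivariant U (mu p))) := by
    intro b
    have hv : ∀ v : ↥S, ∃ w, pushH2 (A := Rep.res (rl v.1) (indRep U (mu p)))
        (B := muLoc p v.1) (indAug U (mu p)) ((indAug_equivariant U (mu p)).res (rl v.1))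
        (localLevels v.1) w = b v := by
      intro v
      have hfd : FiniteDimensional (ZMod p) (Rep.res (rl v.1) (indRep U (mu p))) :=
        finiteDimensional_ind p U (mu p)
      obtain ⟨F, hF, rfl⟩ := hU
      have hlev : (F.fixingSubgroup.comap (rl v.1)) ∈ (localLevels v.1).levels :=
        ⟨F, hF.1, rfl⟩
      have hsm1 : (localLevels v.1).IsUSmooth
          (Rep.res (rl v.1) (indRep F.fixingSubgroup (mu p))) :=
        ⟨_, hlev, fun s hs a => by
          show (indRep F.fixingSubgroup (mu p)).ρ (rl v.1 s) a = a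
          rw [indRep_ρ_eq_one_of_mem F.fixingSubgroup (mu p) hUμ (rl v.1 s) hs]; rfl⟩
      have hsm2 : (localLevels v.1).IsUSmooth (muLoc p v.1) :=
        ⟨_, hlev, fun s hs a => by
          show (mu p).ρ (rl v.1 s) a = a
          rw [hUμ (rl v.1 s) hs]; rfl⟩
      exact h4 v.1 v.2 (Rep.res (rl v.1) (indRep F.fixingSubgroup (mu p))) (muLoc p v.1)
        (indAug F.fixingSubgroup (mu p))
        ((indAug_equivariant F.fixingSubgroup (mu p)).res (rl v.1)) hfd hsm1 hsm2
        (indAug_surjective F.fixingSubgroup (mu p)) (b v)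
    choose w hw using hv
    exact ⟨w, funext fun v => hw v⟩
  obtain ⟨f₀, hf₀⟩ := exists_functional_ker_le_map _ hπ f
  refine ⟨f₀, hf₀.trans ?_⟩
  rintro _ ⟨x, hx, rfl⟩
  obtain ⟨y, rfl⟩ := hf hx
  exact ⟨pushH2 (A := indRep U (mu p)) (B := mu p) (indAug U (mu p))
    (indAug_equivariant U (mu p)) (globalLevels S) y, loc2_pushH2 _ _ _ _⟩

/-- Step B: a class supported at one place is not global (weak reciprocity). -/
lemma eq_zero_of_single_mem_range (hwr : WeakRecipSpec p S) (v : ↥S)
    (x : (localLevels v.1).H2 (muLoc p v.1))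
    (hx : (Pi.single v x : LocProd p S) ∈ LinearMap.range (loc2 (hrl S) (mu p))) : x = 0 := by
  obtain ⟨y, hy⟩ := hx
  have h1 : ∀ v' : ↥S, resH2 (hrl S v') (mu p) y = (Pi.single v x : LocProd p S) v' := by
    intro v'
    rw [← hy]
    rfl
  have h2 := hwr y v (fun v' hv' => by rw [h1 v', Pi.single_eq_of_ne hv'])
  rw [h1 v, Pi.single_eq_same] at h2
  exact h2

/-- **Second reduction.** -/
theorem localInvRecip_of (h4 : Surj2LocSpec p S) (hcok : GlobCokerSpec p S)
    (hwr : WeakRecipSpec p S) (hne : LocH2NeSpec p S) (hmu : MuLevelSpec p S) :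
    LocalInvRecipSpec p S := by
  by_cases hS : Nonempty ↥S
  · obtain ⟨v₀⟩ := hS
    obtain ⟨f₀, hf₀⟩ := exists_functional_mu p S h4 hcok hmu
    -- the range is a proper subspace
    have hproper : LinearMap.range (loc2 (hrl S) (mu p)) ≠ ⊤ := by
      intro htop
      obtain ⟨x, hx⟩ := hne v₀
      apply hx
      apply eq_zero_of_single_mem_range p S hwr v₀ x
      rw [htop]
      exact Submodule.mem_top
    have hle := le_ker_of_ker_le_of_ne_top f₀ _ hf₀ hproper
    refine ⟨fun v => f₀ ∘ₗ LinearMap.single (ZMod p)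
      (fun v : ↥S => (localLevels v.1).H2 (muLoc p v.1)) v, ?_, ?_⟩
    · intro v h0
      obtain ⟨x, hx⟩ := hne v
      apply hx
      apply eq_zero_of_single_mem_range p S hwr v x
      apply hf₀
      rw [LinearMap.mem_ker]
      have := LinearMap.congr_fun h0 x
      simpa using this
    · intro y
      have hy : loc2 (hrl S) (mu p) y ∈ LinearMap.ker f₀ := hle ⟨y, rfl⟩
      rw [LinearMap.mem_ker] at hy
      have hsum : (∑ v : ↥S, (Pi.single v (resH2 (hrl S v) (mu p) y) : LocProd p S)) =
          loc2 (hrl S) (mu p) y := by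
        rw [Finset.univ_sum_single]
        rfl
      rw [← hy, ← hsum, map_sum]
      rfl
  · refine ⟨fun v => 0, fun v => absurd ⟨v⟩ hS, fun y => ?_⟩
    haveI : IsEmpty ↥S := not_nonempty_iff.1 hS
    exact Finset.sum_of_isEmpty _

/-- **`InvSpec` from invariant-free inputs.** -/
theorem invSpec_of' (h4 : Surj2LocSpec p S) (hdim : LocDimSpec p S) (hcok : GlobCokerSpec p S)
    (hwr : WeakRecipSpec p S) (hne : LocH2NeSpec p S) (hmu : MuLevelSpec p S) : InvSpec p S :=
  invSpec_of p S h4 (localInvRecip_of p S h4 hcok hwr hne hmu) hdim hcok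

end Main

end Fermat.Agent.S55.Inv

end
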