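import Fermat.Agent.S55.Inv.Closed
import Fermat.Agent.S55.GAD.ClosedFR

/-!
# S55 / `InvSpec` (A5–A7 of route C′): UNCONDITIONAL (sub-architect helper3)

Pure assembly: `Inv.invSpec_closed` (route C′, `Inv/Closed.lean`) + layer G closed
(`GAD.globalSpecFin`, helper955 / helper55).

* `invSpec p S : p ≠ 2 → pPrime p ∈ S → PT.InvSpec p S`   (consumed by S56, wall REC-Q-SUB);
* `globCoker`, `cokerE`, `go4` : INV-COK / GO4, unconditional.
-/

set_option autoImplicit false

noncomputable section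

namespace Fermat.Agent.S55.Inv

open Fermat.Agent.S55 Fermat.Agent.S55.PT ExtCitation

variable (p : ℕ) [Fact p.Prime] (S : Finset Nat.Primes)

/-- GO4 (`μ_p`-valued cochain form), unconditional. -/
theorem cokerE (hp2 : p ≠ 2) (hpS : pPrime p ∈ S) : CokerESpec p S :=
  cokerE_closed p S hp2 hpS (GAD.globalSpecFin S p hp2 hpS)

/-- GO4 (two-family cochain form), unconditional. -/
theorem go4 (hp2 : p ≠ 2) (hpS : pPrime p ∈ S) : H99.GO4Spec p S :=
  go4_closed p S hp2 hpS (GAD.globalSpecFin S p hp2 hpS)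

/-- INV-COK, unconditional. -/
theorem globCoker (hp2 : p ≠ 2) (hpS : pPrime p ∈ S) : GlobCokerSpec p S :=
  globCoker_closed p S hp2 hpS (GAD.globalSpecFin S p hp2 hpS)

/-- **`PT.InvSpec` (A5–A7 of route C′), unconditional**, for every odd prime `p ∈ S`. -/
theorem invSpec (hp2 : p ≠ 2) (hpS : pPrime p ∈ S) : PT.InvSpec p S :=
  invSpec_closed p S hp2 hpS (GAD.globalSpecFin S p hp2 hpS)

end Fermat.Agent.S55.Inv

end
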